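import Mathlib
import Fermat.Prelude.Def_FLTPrelim_Ramification
import Fermat.Agent.Lib.FrobeniusExistsAt

/-!
# P-S48 (Deligne–Serre), GlueC (ii): infinitely many degree-one primes (helper19)

* `infinite_setOf_prime_eval`: a nonconstant integer polynomial has a root modulo infinitely many
  primes;
* `infinite_setOf_prime_degree_one`: for a number field `K ⊆ ℚ̄` there are infinitely many primes
  `l` with a valuation subring `A` of `ℚ̄` over `l` such that every algebraic integer of `K` is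
  congruent to a rational integer modulo the maximal ideal of `A`.
-/

set_option autoImplicit false

namespace Fermat.Agent.S48x.Assembly

open Polynomial

/-- The integers at which a nonconstant integer polynomial takes a given value form a finite
set. -/
theorem finite_setOf_eval_eq (f : Polynomial ℤ) (hf : 0 < f.natDegree) (v : ℤ) :
    {x : ℤ | f.eval x = v}.Finite := by
  have hne : f - C v ≠ 0 := by
    intro h
    have h1 : f = C v := sub_eq_zero.mp h
    rw [h1, natDegree_C] at hf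
    exact lt_irrefl _ hf
  refine ((f - C v).roots.toFinset.finite_toSet).subset ?_
  intro x hx
  simp only [Finset.mem_coe, Multiset.mem_toFinset]
  rw [mem_roots hne, IsRoot.def, eval_sub, eval_C, Set.mem_setOf_eq.mp hx, sub_self]

/-- A nonconstant integer polynomial has a root modulo infinitely many primes. -/
theorem infinite_setOf_prime_eval (f : Polynomial ℤ) (hf : 0 < f.natDegree) :
    {l : ℕ | l.Prime ∧ ∃ n : ℤ, (l : ℤ) ∣ f.eval n}.Infinite := by
  apply Set.infinite_of_forall_exists_gt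
  intro N
  by_cases hc : f.eval 0 = 0
  · obtain ⟨l, hNl, hl⟩ := Nat.exists_infinite_primes (N + 1)
    exact ⟨l, ⟨hl, 0, by rw [hc]; exact dvd_zero _⟩, by omega⟩
  · set c : ℤ := f.eval 0 with hcdef
    set P : ℤ := (N.factorial : ℤ) with hP
    have hP0 : P ≠ 0 := by
      rw [hP]
      exact_mod_cast N.factorial_ne_zero
    have hcP : c * P ≠ 0 := mul_ne_zero hc hP0
    -- the bad set of `t`
    have hbad : {t : ℤ | f.eval (c * P * t) = c ∨ f.eval (c * P * t) = -c}.Finite := by
      have h1 : ({x : ℤ | f.eval x = c} ∪ {x : ℤ | f.eval x = -c}).Finite :=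
        (finite_setOf_eval_eq f hf c).union (finite_setOf_eval_eq f hf (-c))
      refine (h1.preimage (f := fun t : ℤ => c * P * t) ?_).subset ?_
      · intro a _ b _ hab
        exact mul_left_cancel₀ hcP hab
      · intro t ht
        exact ht
    obtain ⟨t, ht⟩ := hbad.exists_notMem
    simp only [Set.mem_setOf_eq, not_or] at ht
    -- `f (cPt) = c * m` with `m ≡ 1 mod P`
    obtain ⟨g, hg⟩ : c * P * t - 0 ∣ f.eval (c * P * t) - f.eval 0 := sub_dvd_eval_sub _ _ f
    rw [sub_zero, ← hcdef] at hg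
    set m : ℤ := 1 + P * t * g with hm
    have hfm : f.eval (c * P * t) = c * m := by
      rw [hm]
      linear_combination hg
    have hm1 : m ≠ 1 := by
      intro h
      apply ht.1
      rw [hfm, h, mul_one]
    have hm2 : m ≠ -1 := by
      intro h
      apply ht.2
      rw [hfm, h, mul_neg, mul_one]
    have hmabs : m.natAbs ≠ 1 := by
      intro h
      rcases Int.natAbs_eq m with h' | h'
      · rw [h] at h'
        exact hm1 (by simpa using h')
      · rw [h] at h'
        exact hm2 (by simpa using h')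
    obtain ⟨l, hl, hlm⟩ := Nat.exists_prime_and_dvd hmabs
    have hlm' : (l : ℤ) ∣ m := Int.natCast_dvd.mpr hlm
    refine ⟨l, ⟨hl, c * P * t, ?_⟩, ?_⟩
    · rw [hfm]
      exact Dvd.dvd.mul_left hlm' c
    · by_contra hle
      rw [not_lt] at hle
      have hlP : (l : ℤ) ∣ P := by
        rw [hP]
        exact_mod_cast Nat.dvd_factorial hl.pos hle
      have h1 : (l : ℤ) ∣ 1 := by
        have h2 : (l : ℤ) ∣ P * t * g := Dvd.dvd.mul_right (Dvd.dvd.mul_right hlP t) g
        have h3 : (1 : ℤ) = m - P * t * g := by rw [hm]; ring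
        rw [h3]
        exact dvd_sub hlm' h2
      have h4 : l ∣ 1 := by exact_mod_cast h1
      exact hl.one_lt.ne' (Nat.dvd_one.mp h4)

/-! ### A place from a root of the minimal polynomial modulo `l` -/

section Place

open Fermat.Agent.Lib

variable {L : Type*} [Field L] [CharZero L]

/-- If the minimal polynomial of the algebraic integer `θ` has the root `n₀` modulo `l`, there is
a valuation subring over `l` in which `θ ≡ n₀`. -/
theorem exists_valuationSubring_of_dvd_eval_minpoly {θ : L} (hθ : IsIntegral ℤ θ) {l : ℕ}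
    (hl : l.Prime) {n₀ : ℤ} (h : (l : ℤ) ∣ (minpoly ℤ θ).eval n₀) :
    ∃ A : ValuationSubring L, A.LiesOverPrime l ∧ θ - (n₀ : L) ∈ A.nonunits := by
  let φ : ℤ[X] →+* L := (aeval θ : ℤ[X] →ₐ[ℤ] L).toRingHom
  have hφ : ∀ p : ℤ[X], φ p = aeval θ p := fun _ => rfl
  let R : Subring L := φ.range
  let lR : R := ⟨(l : L), ⟨C (l : ℤ), by rw [hφ, aeval_C]; simp⟩⟩
  let tR : R := ⟨θ - (n₀ : L), ⟨X - C n₀, by rw [hφ, map_sub, aeval_X, aeval_C]; simp⟩⟩
  have hI : Ideal.span {lR, tR} ≠ ⊤ := by
    intro htop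
    have h1 : (1 : R) ∈ Ideal.span {lR, tR} := htop ▸ Submodule.mem_top
    obtain ⟨a, b, hab⟩ := Ideal.mem_span_pair.mp h1
    obtain ⟨pa, hpa⟩ := a.2
    obtain ⟨pb, hpb⟩ := b.2
    have hab' : (a : L) * (l : L) + (b : L) * (θ - (n₀ : L)) = 1 := by
      have := congrArg Subtype.val hab
      simpa [lR, tR] using this
    have hzero : aeval θ (pa * C (l : ℤ) + pb * (X - C n₀) - 1) = 0 := by
      rw [map_sub, map_add, map_mul, map_mul, map_sub, aeval_X, aeval_C, aeval_C, map_one,
        ← hφ pa, ← hφ pb, hpa, hpb]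
      have e1 : algebraMap ℤ L (l : ℤ) = (l : L) := by simp
      have e2 : algebraMap ℤ L n₀ = (n₀ : L) := by simp
      rw [e1, e2, hab', sub_self]
    have hdvd := minpoly.isIntegrallyClosed_dvd hθ hzero
    have hev : (minpoly ℤ θ).eval n₀ ∣ (pa * C (l : ℤ) + pb * (X - C n₀) - 1).eval n₀ :=
      eval_dvd hdvd
    have hev' : (pa * C (l : ℤ) + pb * (X - C n₀) - 1).eval n₀ = pa.eval n₀ * (l : ℤ) - 1 := by
      simp
    rw [hev'] at hev
    have h2 : (l : ℤ) ∣ pa.eval n₀ * (l : ℤ) - 1 := h.trans hev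
    have h3 : (l : ℤ) ∣ 1 := by
      have h4 : (l : ℤ) ∣ pa.eval n₀ * (l : ℤ) := Dvd.intro_left _ rfl
      have h5 : (1 : ℤ) = pa.eval n₀ * (l : ℤ) - (pa.eval n₀ * (l : ℤ) - 1) := by ring
      rw [h5]
      exact dvd_sub h4 h2
    have h6 : l ∣ 1 := by exact_mod_cast h3
    exact hl.one_lt.ne' (Nat.dvd_one.mp h6)
  obtain ⟨A, -, hIA⟩ := Ideal.image_subset_nonunits_valuationSubring _ hI
  refine ⟨A, ?_, ?_⟩
  · exact hIA ⟨lR, Ideal.subset_span (by simp), rfl⟩
  · exact hIA ⟨tR, Ideal.subset_span (by simp), rfl⟩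

end Place

/-! ### Bounded denominators with respect to an integral primitive element -/

section Denominator

open Fermat.Agent.Lib

variable {L : Type*} [Field L] [Algebra ℚ L]

/-- Every element of a number field `K = ℚ(α)` is a rational polynomial in an integral multiple
`θ` of `α`. -/
theorem exists_integral_primitive (K : IntermediateField ℚ L) [FiniteDimensional ℚ K] :
    ∃ θ : L, IsIntegral ℤ θ ∧ ∀ x ∈ K, ∃ g₀ : ℚ[X], aeval θ g₀ = x := by
  letI : Algebra ℚ K := K.algebra'
  obtain ⟨α, hα⟩ := Field.exists_primitive_element ℚ K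
  have hαint : IsIntegral ℚ α := Algebra.IsIntegral.isIntegral α
  have hαalg : IsAlgebraic ℤ ((α : K) : L) := by
    have h1 : IsAlgebraic ℚ ((α : K) : L) :=
      (hαint.map (K.val : K →ₐ[ℚ] L)).isAlgebraic
    exact (IsFractionRing.isAlgebraic_iff ℤ ℚ L).mpr h1
  obtain ⟨y, hy0, hyint⟩ := hαalg.exists_integral_multiple
  refine ⟨y • ((α : K) : L), hyint, fun x hx => ?_⟩
  -- `x` is a polynomial in `α`
  have hmem : (⟨x, hx⟩ : K) ∈ (IntermediateField.adjoin ℚ {α}).toSubalgebra := by
    rw [hα]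
    exact Algebra.mem_top
  rw [IntermediateField.adjoin_simple_toSubalgebra_of_isAlgebraic hαint.isAlgebraic,
    Algebra.adjoin_singleton_eq_range_aeval] at hmem
  obtain ⟨g, hg⟩ := hmem
  have hg' : aeval ((α : K) : L) g = x := by
    have hg2 : aeval α g = (⟨x, hx⟩ : K) := hg
    have h2 := congrArg (K.val : K →ₐ[ℚ] L) hg2
    rw [← aeval_algHom_apply] at h2
    exact h2
  have hyQ : (y : ℚ) ≠ 0 := by exact_mod_cast hy0
  have harg : algebraMap ℚ L ((y : ℚ)⁻¹) * (y • ((α : K) : L)) = ((α : K) : L) := by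
    rw [zsmul_eq_mul, ← mul_assoc]
    have hcast : ((y : ℤ) : L) = algebraMap ℚ L (y : ℚ) := by simp
    rw [hcast, ← map_mul, inv_mul_cancel₀ hyQ, map_one, one_mul]
  refine ⟨g.comp (C ((y : ℚ)⁻¹) * X), ?_⟩
  rw [aeval_comp, map_mul, aeval_C, aeval_X, harg, hg']

/-- Bounded denominators: for a number field `K ⊆ L` there are an algebraic integer `θ` and an
integer `d ≠ 0` such that `d x ∈ ℤ[θ]` for every algebraic integer `x ∈ K`. -/
theorem exists_denominator (K : IntermediateField ℚ L) [FiniteDimensional ℚ K] :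
    ∃ θ : L, IsIntegral ℤ θ ∧ ∃ d : ℤ, d ≠ 0 ∧
      ∀ x ∈ K, IsIntegral ℤ x → ∃ g : ℤ[X], (d : L) * x = aeval θ g := by
  classical
  haveI : CharZero L := algebraRat.charZero L
  obtain ⟨θ, hθ, hrep⟩ := exists_integral_primitive K
  -- clearing denominators elementwise
  have hrep' : ∀ x ∈ K, ∃ b : ℤ, b ≠ 0 ∧ ∃ g : ℤ[X], (b : L) * x = aeval θ g := by
    intro x hx
    obtain ⟨g₀, hg₀⟩ := hrep x hx
    obtain ⟨b, hb, hbg⟩ := IsLocalization.integerNormalization_spec (nonZeroDivisors ℤ) g₀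
    refine ⟨b, nonZeroDivisors.ne_zero hb,
      IsLocalization.integerNormalization (nonZeroDivisors ℤ) g₀, ?_⟩
    have h1 := congrArg (aeval θ) hbg
    rw [aeval_map_algebraMap, map_zsmul, hg₀] at h1
    rw [h1, zsmul_eq_mul]
  -- finite generation of the integers of `K`
  letI : Algebra ℚ K := K.algebra'
  haveI : NumberField K := NumberField.of_module_finite ℚ K
  let φ : NumberField.RingOfIntegers K →ₗ[ℤ] L :=
    ((K.val : K →+* L).comp
      (algebraMap (NumberField.RingOfIntegers K) K)).toAddMonoidHom.toIntLinearMap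
  have hφ : ∀ y : NumberField.RingOfIntegers K, φ y = ((algebraMap _ K y : K) : L) := fun _ => rfl
  have hfg : (Submodule.map φ ⊤).FG := (Module.Finite.fg_top).map φ
  obtain ⟨S, hS⟩ := hfg
  have hSK : ∀ s ∈ S, s ∈ K := by
    intro s hs
    have h1 : s ∈ Submodule.map φ ⊤ := hS ▸ Submodule.subset_span hs
    obtain ⟨y, -, rfl⟩ := h1
    rw [hφ]
    exact (algebraMap (NumberField.RingOfIntegers K) K y).2
  choose! b hb0 g hg using hrep'
  let d : ℤ := ∏ s ∈ S, b s
  have hd0 : d ≠ 0 := Finset.prod_ne_zero_iff.mpr (fun s hs => hb0 s (hSK s hs))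
  let N : Submodule ℤ L :=
    { carrier := {y | ∃ p : ℤ[X], (d : L) * y = aeval θ p}
      add_mem' := by
        rintro y z ⟨p, hp⟩ ⟨q, hq⟩
        exact ⟨p + q, by rw [mul_add, hp, hq, map_add]⟩
      zero_mem' := ⟨0, by simp⟩
      smul_mem' := by
        rintro c y ⟨p, hp⟩
        refine ⟨C c * p, ?_⟩
        rw [map_mul, aeval_C, ← hp, zsmul_eq_mul]
        simp only [eq_intCast]
        ring }
  have hSN : (S : Set L) ⊆ N := by
    intro s hs
    obtain ⟨c, hc⟩ : b s ∣ d := Finset.dvd_prod_of_mem b hs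
    refine ⟨C c * g s, ?_⟩
    rw [map_mul, aeval_C, ← hg s (hSK s hs), hc]
    simp only [eq_intCast, Int.cast_mul]
    ring
  have hle : Submodule.map φ ⊤ ≤ N := hS ▸ Submodule.span_le.mpr hSN
  refine ⟨θ, hθ, d, hd0, fun x hx hxint => ?_⟩
  have hxK : IsIntegral ℤ (⟨x, hx⟩ : K) := by
    have hinj : Function.Injective (algebraMap K L) := (algebraMap K L).injective
    exact (isIntegral_algebraMap_iff hinj).mp hxint
  obtain ⟨y, hy⟩ :=
    (IsIntegralClosure.isIntegral_iff (A := NumberField.RingOfIntegers K)).mp hxK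
  have hxmem : x ∈ Submodule.map φ ⊤ := ⟨y, Submodule.mem_top, by rw [hφ, hy]⟩
  exact hle hxmem

end Denominator

/-! ### Infinitely many degree-one primes -/

section Main

open Fermat.Agent.Lib

variable {L : Type*} [Field L] [Algebra ℚ L]

/-- For a number field `K ⊆ L` there are infinitely many primes `l` admitting a valuation subring
`A` of `L` over `l` such that every algebraic integer of `K` is congruent to a rational integer
modulo the maximal ideal of `A` (a place of degree one of `K`). -/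
theorem infinite_setOf_prime_degree_one (K : IntermediateField ℚ L) [FiniteDimensional ℚ K] :
    {l : ℕ | l.Prime ∧ ∃ A : ValuationSubring L, A.LiesOverPrime l ∧
      ∀ x ∈ K, IsIntegral ℤ x → ∃ n : ℤ, x - (n : L) ∈ A.nonunits}.Infinite := by
  haveI : CharZero L := algebraRat.charZero L
  obtain ⟨θ, hθ, d, hd0, hd⟩ := exists_denominator K
  have hdeg : 0 < (minpoly ℤ θ).natDegree := minpoly.natDegree_pos hθ
  have hinf := infinite_setOf_prime_eval (minpoly ℤ θ) hdeg
  have hfin : {l : ℕ | (l : ℤ) ∣ d}.Finite := by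
    refine ((Nat.divisors d.natAbs).finite_toSet).subset ?_
    intro l hl
    simp only [Finset.mem_coe, Nat.mem_divisors]
    exact ⟨Int.natCast_dvd.mp hl, fun h => hd0 (Int.natAbs_eq_zero.mp h)⟩
  refine (hinf.diff hfin).mono ?_
  rintro l ⟨⟨hl, n₀, hn₀⟩, hld⟩
  obtain ⟨A, hA, hθA⟩ := exists_valuationSubring_of_dvd_eval_minpoly hθ hl hn₀
  refine ⟨hl, A, hA, fun x hx hxint => ?_⟩
  obtain ⟨g, hg⟩ := hd x hx hxint
  -- `g(θ) - g(n₀)` is divisible by `θ - n₀`
  obtain ⟨q, hq⟩ : X - C n₀ ∣ g - C (g.eval n₀) := by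
    rw [dvd_iff_isRoot, IsRoot.def, eval_sub, eval_C, sub_self]
  have h1 : aeval θ g - ((g.eval n₀ : ℤ) : L) = (θ - (n₀ : L)) * aeval θ q := by
    have h2 := congrArg (aeval θ) hq
    rw [map_sub, map_mul, map_sub, aeval_X, aeval_C, aeval_C] at h2
    simpa using h2
  -- `d` is invertible modulo `l`
  have hcop : IsCoprime d (l : ℤ) := by
    rw [isCoprime_comm]
    exact (Nat.prime_iff_prime_int.mp hl).coprime_iff_not_dvd.mpr hld
  obtain ⟨u, v, huv⟩ := hcop
  have hcast : (u : L) * (d : L) + (v : L) * ((l : ℕ) : L) = 1 := by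
    have h3 := congrArg (fun z : ℤ => (z : L)) huv
    simpa using h3
  refine ⟨u * g.eval n₀, ?_⟩
  have hx_eq : x - ((u * g.eval n₀ : ℤ) : L) =
      (u : L) * ((θ - (n₀ : L)) * aeval θ q) + (v : L) * (((l : ℕ) : L) * x) := by
    rw [← h1, ← hg]
    push_cast
    linear_combination (-x) * hcast
  have hxA : x ∈ A := mem_valuationSubring_of_isIntegral A hxint
  have hqint : IsIntegral ℤ (aeval θ q) := by
    have h4 : aeval θ q ∈ Algebra.adjoin ℤ {θ} := aeval_mem_adjoin_singleton ℤ θ
    have h5 : Algebra.adjoin ℤ {θ} ≤ integralClosure ℤ L :=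
      Algebra.adjoin_le (Set.singleton_subset_iff.mpr hθ)
    exact h5 h4
  have hqA : aeval θ q ∈ A := mem_valuationSubring_of_isIntegral A hqint
  have huA : (u : L) ∈ A := mem_valuationSubring_of_isIntegral A isIntegral_algebraMap
  have hvA : (v : L) ∈ A := mem_valuationSubring_of_isIntegral A isIntegral_algebraMap
  have hlA : ((l : ℕ) : L) ∈ A.nonunits := hA
  rw [hx_eq]
  refine A.nonunits.add_mem ?_ ?_
  · rw [mul_comm]
    exact mul_mem_nonunits_of_mem A (mul_mem_nonunits_of_mem A hθA hqA) huA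
  · rw [mul_comm]
    exact mul_mem_nonunits_of_mem A (mul_mem_nonunits_of_mem A hlA hxA) hvA

/-- Consumer form: a degree-one prime outside any given finite set. -/
theorem exists_prime_degree_one_notMem (K : IntermediateField ℚ L) [FiniteDimensional ℚ K]
    (S : Finset ℕ) :
    ∃ l : ℕ, l ∉ S ∧ l.Prime ∧ ∃ A : ValuationSubring L, A.LiesOverPrime l ∧
      ∀ x ∈ K, IsIntegral ℤ x → ∃ n : ℤ, x - (n : L) ∈ A.nonunits := by
  obtain ⟨l, hl, hlS⟩ := (infinite_setOf_prime_degree_one K).exists_notMem_finset S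
  exact ⟨l, hlS, hl.1, hl.2⟩

/-- Consumer form: arbitrarily large degree-one primes. -/
theorem exists_prime_degree_one_gt (K : IntermediateField ℚ L) [FiniteDimensional ℚ K] (B : ℕ) :
    ∃ l : ℕ, B < l ∧ l.Prime ∧ ∃ A : ValuationSubring L, A.LiesOverPrime l ∧
      ∀ x ∈ K, IsIntegral ℤ x → ∃ n : ℤ, x - (n : L) ∈ A.nonunits := by
  obtain ⟨l, hl, hBl⟩ := (infinite_setOf_prime_degree_one K).exists_gt B
  exact ⟨l, hBl, hl.1, hl.2⟩

end Main

end Fermat.Agent.S48x.Assembly
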