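/-
helper18.  P-S48 (Deligne-Serre), blocks DS4/DS5 = the assembly.  Shared definitions: the exact
shapes of the inputs (integral eigen-data inside `ℚbar`, Rankin bound for all conjugates, mod `ℓ`
representations) consumed by the assembly.  Design: note `S48-DESIGN-DS4/DS5 v1`.
-/
import Mathlib
import Fermat.Prelude.Def_GaloisRep_Residual
import Fermat.Prelude.Def_Deformations_MatrixRepresentation

set_option autoImplicit false

namespace Fermat.Agent.S48x.Assembly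

/-- `ℚbar`. -/
abbrev Qb := AlgebraicClosure ℚ

/-- The absolute Galois group of `ℚ`. -/
abbrev GQ := Qb ≃ₐ[ℚ] Qb

instance isAlgebraic_Qb : Algebra.IsAlgebraic ℚ Qb := by
  have h : (DivisionRing.toRatAlgebra : Algebra ℚ (AlgebraicClosure ℚ)) =
      AlgebraicClosure.instAlgebra ℚ := Subsingleton.elim _ _
  rw [h]
  infer_instance

instance isGalois_Qb : IsGalois ℚ Qb := by
  have h : (DivisionRing.toRatAlgebra : Algebra ℚ (AlgebraicClosure ℚ)) =
      AlgebraicClosure.instAlgebra ℚ := Subsingleton.elim _ _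
  rw [h]
  infer_instance

/-- The set `X` of primes has upper logarithmic density at most `c`, in the finset form with a
constant: `∑_{p ∈ P} p^(-s) ≤ c log (1/(s-1)) + C'` for all finite sets `P` of primes of `X` and
all `s ∈ (1, 2]`. -/
def UpperLogDensityLE (X : Set ℕ) (c : ℝ) : Prop :=
  ∃ C' : ℝ, ∀ s : ℝ, 1 < s → s ≤ 2 → ∀ P : Finset ℕ, (∀ p ∈ P, p.Prime ∧ p ∈ X) →
    ∑ p ∈ P, (p : ℝ) ^ (-s) ≤ c * Real.log (1 / (s - 1)) + C'

/-- Weak semisimplicity of a two-dimensional matrix representation: a common eigenvector has an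
independent common eigenvector. -/
def WeakSS {G : Type*} [Group G] {k : Type*} [CommRing k] (r : G →* GL (Fin 2) k) : Prop :=
  ∀ v : Fin 2 → k, v ≠ 0 →
    (∀ g, ∃ c : k, (r g : Matrix (Fin 2) (Fin 2) k).mulVec v = c • v) →
    ∃ w : Fin 2 → k, (∀ c : k, w ≠ c • v) ∧
      ∀ g, ∃ c : k, (r g : Matrix (Fin 2) (Fin 2) k).mulVec w = c • w

/-- The integral eigen-data attached to the weight one form, inside `ℚbar`: the eigenvalues
`α p` and the character values `ee p` at the primes `p ∤ N`. -/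
structure EigenData (N : ℕ) where
  /-- the Hecke eigenvalues -/
  α : ℕ → Qb
  /-- the values of the character -/
  ee : ℕ → Qb
  α_int : ∀ p : ℕ, p.Prime → ¬ p ∣ N → IsIntegral ℤ (α p)
  ee_int : ∀ p : ℕ, p.Prime → ¬ p ∣ N → IsIntegral ℤ (ee p)
  /-- a number field containing all eigenvalues -/
  K : IntermediateField ℚ Qb
  K_fin : FiniteDimensional ℚ K
  α_mem : ∀ p : ℕ, p.Prime → ¬ p ∣ N → α p ∈ K
  ee_mem : ∀ p : ℕ, p.Prime → ¬ p ∣ N → ee p ∈ K
  /-- the character takes finitely many values -/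
  ee_fin : {x : Qb | ∃ p : ℕ, p.Prime ∧ ¬ p ∣ N ∧ ee p = x}.Finite

/-- **Rankin bound for all conjugates** (input (B)): for every embedding `τ` of `ℚbar` into `ℂ`,
`∑_{p ∈ P} |τ(α p)|² p^(-s) ≤ log (1/(s-1)) + C` on `(1, 2]`, for all finite sets `P` of primes not
dividing `N`. -/
def RankinAll {N : ℕ} (D : EigenData N) : Prop :=
  ∀ τ : Qb →+* ℂ, ∃ C : ℝ, ∀ s : ℝ, 1 < s → s ≤ 2 →
    ∀ P : Finset ℕ, (∀ p ∈ P, p.Prime ∧ ¬ p ∣ N) →
      ∑ p ∈ P, ‖τ (D.α p)‖ ^ 2 * (p : ℝ) ^ (-s) ≤ Real.log (1 / (s - 1)) + C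

/-- **Input (C)**: a mod `ℓ` representation attached to the eigen-data, over the prime field,
with respect to a valuation subring `A` of `ℚbar` over `ℓ`. -/
structure ModLRep {N : ℕ} (D : EigenData N) (ℓ : ℕ) where
  /-- the place of `ℚbar` over `ℓ` -/
  A : ValuationSubring Qb
  hA : A.LiesOverPrime ℓ
  /-- the representation -/
  r : GQ →* GL (Fin 2) (ZMod ℓ)
  finite_level : GaloisFactorsThroughFiniteLevel r
  weakSS : WeakSS r
  unram : ∀ p : ℕ, p.Prime → ¬ p ∣ N * ℓ → ∀ A' : ValuationSubring Qb, A'.LiesOverPrime p →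
    ∀ σ ∈ A'.inertiaSubgroupIn ℚ, r σ = 1
  frob : ∀ p : ℕ, p.Prime → ¬ p ∣ N * ℓ → ∀ A' : ValuationSubring Qb, A'.LiesOverPrime p →
    ∀ σ : GQ, A'.IsFrobeniusAt σ p → ∀ n : ℤ,
      ((n : ZMod ℓ) = (r σ : Matrix (Fin 2) (Fin 2) (ZMod ℓ)).trace → D.α p - n ∈ A.nonunits) ∧
      ((n : ZMod ℓ) = (r σ : Matrix (Fin 2) (Fin 2) (ZMod ℓ)).det → D.ee p - n ∈ A.nonunits)

/-- **Input (C)**, global form: mod `ℓ` representations for infinitely many `ℓ`. -/
def HasModLReps {N : ℕ} (D : EigenData N) : Prop :=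
  ∀ B : ℕ, ∃ ℓ : ℕ, B < ℓ ∧ ℓ.Prime ∧ Nonempty (ModLRep D ℓ)

/-! ### The three external inputs of the assembly, as propositions -/

/-- **Chebotarev, density form (D2)**: if every Frobenius element over a prime outside `S` landing in
the conjugation stable set `B` of the finite Galois group `M` lies over a prime of `X`, and `X` has
upper logarithmic density at most `c`, then `#B ≤ c · #M`. -/
def ChebD2 : Prop :=
  ∀ (M : Type) [Group M] [Finite M] (r : GQ →* M), Function.Surjective r →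
    GaloisFactorsThroughFiniteLevel r →
    ∀ B : Set M, (∀ x y : M, y ∈ B → x * y * x⁻¹ ∈ B) →
    ∀ (X : Set ℕ) (c : ℝ), UpperLogDensityLE X c →
    ∀ S : Finset ℕ,
      (∀ p : ℕ, p.Prime → p ∉ S → ∀ A : ValuationSubring Qb, A.LiesOverPrime p →
        ∀ φ : GQ, A.IsFrobeniusAt φ p → r φ ∈ B → p ∈ X) →
      (Nat.card B : ℝ) ≤ c * Nat.card M

/-- **Chebotarev, density form (D3)**: lower bound for the prime sums of a non-negative class
function of the Frobenius. -/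
def ChebD3 : Prop :=
  ∀ (M : Type) [Group M] [Finite M] (r : GQ →* M), Function.Surjective r →
    GaloisFactorsThroughFiniteLevel r →
    ∀ ψ : M → ℝ, (∀ g, 0 ≤ ψ g) → (∀ x y : M, ψ (x * y * x⁻¹) = ψ y) →
    ∀ (w : ℕ → ℝ) (S : Finset ℕ),
      (∀ p : ℕ, p.Prime → p ∉ S → ∀ A : ValuationSubring Qb, A.LiesOverPrime p →
        ∀ φ : GQ, A.IsFrobeniusAt φ p → w p = ψ (r φ)) →
    ∀ ε : ℝ, 0 < ε → ∃ s₀ : ℝ, 1 < s₀ ∧ ∀ s : ℝ, 1 < s → s < s₀ →
      ∃ P : Finset ℕ, (∀ p ∈ P, p.Prime ∧ p ∉ S) ∧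
        ((∑ᶠ g, ψ g) / Nat.card M - ε) * Real.log (1 / (s - 1)) ≤
          ∑ p ∈ P, w p * (p : ℝ) ^ (-s)

/-- **Group theory (DS3)**, Deligne-Serre Proposition 7.2 over the prime field. -/
def GroupBound : Prop :=
  ∀ (ℓ : ℕ) [Fact ℓ.Prime] (G : Subgroup (GL (Fin 2) (ZMod ℓ))),
    (∀ v : Fin 2 → ZMod ℓ, v ≠ 0 →
      (∀ g ∈ G, ∃ c : ZMod ℓ, (g : Matrix (Fin 2) (Fin 2) (ZMod ℓ)).mulVec v = c • v) →
      ∃ w : Fin 2 → ZMod ℓ, (∀ c : ZMod ℓ, w ≠ c • v) ∧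
        ∀ g ∈ G, ∃ c : ZMod ℓ, (g : Matrix (Fin 2) (Fin 2) (ZMod ℓ)).mulVec w = c • w) →
    ∀ H : Finset (GL (Fin 2) (ZMod ℓ)), (∀ h ∈ H, h ∈ G) →
    ∀ D M : ℕ, 24 ≤ D → D * (Nat.card G - H.card) ≤ Nat.card G →
      (H.image fun h : GL (Fin 2) (ZMod ℓ) => ((h : Matrix (Fin 2) (Fin 2) (ZMod ℓ)).trace,
        (h : Matrix (Fin 2) (Fin 2) (ZMod ℓ)).det)).card ≤ M →
      Nat.card G ≤ (4 * M + 1) ^ 4

/-! ### Intermediate objects of the chain -/

/-- A characteristic zero lift of a mod `ℓ` representation: finite image of exponent dividing `m`,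
unramified outside `N ℓ`, congruent to the eigen-data modulo the place `A` over `ℓ`. -/
structure QbRep {N : ℕ} (D : EigenData N) (ℓ m : ℕ) where
  /-- the place of `ℚbar` over `ℓ` -/
  A : ValuationSubring Qb
  hA : A.LiesOverPrime ℓ
  /-- the representation -/
  ρ : GQ →* GL (Fin 2) Qb
  finite_level : GaloisFactorsThroughFiniteLevel ρ
  pow_eq_one : ∀ σ : GQ, ρ σ ^ m = 1
  unram : ∀ p : ℕ, p.Prime → ¬ p ∣ N * ℓ → ∀ A' : ValuationSubring Qb, A'.LiesOverPrime p →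
    ∀ σ ∈ A'.inertiaSubgroupIn ℚ, ρ σ = 1
  frob : ∀ p : ℕ, p.Prime → ¬ p ∣ N * ℓ → ∀ A' : ValuationSubring Qb, A'.LiesOverPrime p →
    ∀ σ : GQ, A'.IsFrobeniusAt σ p →
      D.α p - (ρ σ : Matrix (Fin 2) (Fin 2) Qb).trace ∈ A.nonunits ∧
      D.ee p - (ρ σ : Matrix (Fin 2) (Fin 2) Qb).det ∈ A.nonunits

/-- A characteristic zero representation with the exact traces and determinants of Frobenius
outside `N ℓ`. -/
structure ExactRep {N : ℕ} (D : EigenData N) (ℓ m : ℕ) where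
  /-- the representation -/
  ρ : GQ →* GL (Fin 2) Qb
  finite_level : GaloisFactorsThroughFiniteLevel ρ
  pow_eq_one : ∀ σ : GQ, ρ σ ^ m = 1
  unram : ∀ p : ℕ, p.Prime → ¬ p ∣ N * ℓ → ∀ A' : ValuationSubring Qb, A'.LiesOverPrime p →
    ∀ σ ∈ A'.inertiaSubgroupIn ℚ, ρ σ = 1
  frob : ∀ p : ℕ, p.Prime → ¬ p ∣ N * ℓ → ∀ A' : ValuationSubring Qb, A'.LiesOverPrime p →
    ∀ σ : GQ, A'.IsFrobeniusAt σ p →
      (ρ σ : Matrix (Fin 2) (Fin 2) Qb).trace = D.α p ∧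
      (ρ σ : Matrix (Fin 2) (Fin 2) Qb).det = D.ee p

/-- A characteristic zero representation with prescribed traces and determinants of Frobenius
outside the primes dividing `bad`. -/
structure ExactRepAt (α ee : ℕ → Qb) (bad m : ℕ) where
  /-- the representation -/
  ρ : GQ →* GL (Fin 2) Qb
  finite_level : GaloisFactorsThroughFiniteLevel ρ
  pow_eq_one : ∀ σ : GQ, ρ σ ^ m = 1
  unram : ∀ p : ℕ, p.Prime → ¬ p ∣ bad → ∀ A' : ValuationSubring Qb, A'.LiesOverPrime p →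
    ∀ σ ∈ A'.inertiaSubgroupIn ℚ, ρ σ = 1
  frob : ∀ p : ℕ, p.Prime → ¬ p ∣ bad → ∀ A' : ValuationSubring Qb, A'.LiesOverPrime p →
    ∀ σ : GQ, A'.IsFrobeniusAt σ p →
      (ρ σ : Matrix (Fin 2) (Fin 2) Qb).trace = α p ∧
      (ρ σ : Matrix (Fin 2) (Fin 2) Qb).det = ee p

/-- Forgetting the eigen-data. -/
def ExactRep.toAt {N : ℕ} {D : EigenData N} {ℓ m : ℕ} (R : ExactRep D ℓ m) :
    ExactRepAt D.α D.ee (N * ℓ) m where
  ρ := R.ρ
  finite_level := R.finite_level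
  pow_eq_one := R.pow_eq_one
  unram := R.unram
  frob := R.frob

/-- **Lifting input (L)**: a mod `ℓ` representation of a finite group of order prime to `ℓ` lifts
to `ℚbar`, compatibly with a given place over `ℓ`. -/
def LiftInput : Prop :=
  ∀ (ℓ : ℕ) [Fact ℓ.Prime] (A : ValuationSubring Qb), A.LiesOverPrime ℓ →
    ∀ (G : Type) [Group G] [Finite G], ¬ ℓ ∣ Nat.card G → ∀ r : G →* GL (Fin 2) (ZMod ℓ),
      ∃ ρ : G →* GL (Fin 2) Qb, ∀ g : G, ∀ n : ℤ,
        ((n : ZMod ℓ) = (r g : Matrix (Fin 2) (Fin 2) (ZMod ℓ)).trace →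
          (ρ g : Matrix (Fin 2) (Fin 2) Qb).trace - n ∈ A.nonunits) ∧
        ((n : ZMod ℓ) = (r g : Matrix (Fin 2) (Fin 2) (ZMod ℓ)).det →
          (ρ g : Matrix (Fin 2) (Fin 2) Qb).det - n ∈ A.nonunits)

end Fermat.Agent.S48x.Assembly
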