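/-
helper18.  P-S48 (Deligne-Serre), assembly: the pinning lemmas.  A nonzero algebraic integer lies
in the maximal ideal of only finitely many residue characteristics; consequences for finite sets
of algebraic integers (separation, pigeonhole), and the finite sets of sums / products of two
roots of unity.
-/
import Mathlib
import Fermat.Agent.Lib.FrobeniusValuation
import Fermat.Agent.S48x.Lift.Algebraic
import Fermat.Agent.S48x.Assembly.Defs

set_option autoImplicit false

namespace Fermat.Agent.S48x.Assembly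

open Fermat.Agent.Lib Polynomial

section general

variable {L : Type*} [Field L]

theorem sub_mem_nonunits (A : ValuationSubring L) {x y : L} (hx : x ∈ A.nonunits)
    (hy : y ∈ A.nonunits) : x - y ∈ A.nonunits := by
  rw [ValuationSubring.mem_nonunits_iff] at *
  exact lt_of_le_of_lt (Valuation.map_sub _ _ _) (max_lt hx hy)

theorem neg_mem_nonunits (A : ValuationSubring L) {x : L} (hx : x ∈ A.nonunits) :
    -x ∈ A.nonunits := by
  rw [ValuationSubring.mem_nonunits_iff] at *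
  rwa [Valuation.map_neg]

theorem zero_mem_nonunits (A : ValuationSubring L) : (0 : L) ∈ A.nonunits := by
  rw [ValuationSubring.mem_nonunits_iff, map_zero]
  exact zero_lt_one

/-- The polynomial expressions in an algebraic integer are algebraic integers. -/
theorem isIntegral_aeval {x : L} (hx : IsIntegral ℤ x) (g : ℤ[X]) : IsIntegral ℤ (aeval x g) := by
  have h : aeval x g = ((aeval (⟨x, hx⟩ : integralClosure ℤ L) g : integralClosure ℤ L) : L) :=
    (Subalgebra.aeval_coe (integralClosure ℤ L) ⟨x, hx⟩ g).symm ▸ rfl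
  rw [h]
  exact (aeval (⟨x, hx⟩ : integralClosure ℤ L) g).2

/-- **P1.** A nonzero algebraic integer lies in the maximal ideals of places of bounded residue
characteristic only. -/
theorem exists_bound_of_mem_nonunits [CharZero L] {x : L} (hx : IsIntegral ℤ x) (hx0 : x ≠ 0) :
    ∃ B : ℕ, ∀ ℓ : ℕ, ℓ.Prime → ∀ A : ValuationSubring L, A.LiesOverPrime ℓ →
      x ∈ A.nonunits → ℓ ≤ B := by
  set f : ℤ[X] := minpoly ℤ x with hf
  have hc0 : f.coeff 0 ≠ 0 := by
    intro h0
    have hQ : minpoly ℚ x = f.map (algebraMap ℤ ℚ) :=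
      minpoly.isIntegrallyClosed_eq_field_fractions' ℚ hx
    have h1 : (minpoly ℚ x).coeff 0 ≠ 0 :=
      minpoly.coeff_zero_ne_zero (IsIntegral.tower_top (A := ℚ) hx) hx0
    rw [hQ, coeff_map, h0, map_zero] at h1
    exact h1 rfl
  refine ⟨(f.coeff 0).natAbs, fun ℓ hℓ A hA hxA => ?_⟩
  have h1 : aeval x f = 0 := minpoly.aeval ℤ x
  have h2 : f = f.divX * X + C (f.coeff 0) := (divX_mul_X_add f).symm
  have h3 : ((f.coeff 0 : ℤ) : L) = -(x * aeval x f.divX) := by
    have h5 := congrArg (aeval x) h2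
    rw [h1, map_add, map_mul, aeval_X, aeval_C, eq_intCast] at h5
    linear_combination -h5
  have h4 : ((f.coeff 0 : ℤ) : L) ∈ A.nonunits := by
    rw [h3]
    exact neg_mem_nonunits A (mul_mem_nonunits_of_mem A hxA
      (mem_valuationSubring_of_isIntegral A (isIntegral_aeval hx _)))
  have h5 : (ℓ : ℤ) ∣ f.coeff 0 := by
    by_contra hnd
    exact intCast_not_mem_nonunits A hℓ hA hnd h4
  have h6 : ℓ ∣ (f.coeff 0).natAbs := Int.natCast_dvd.mp h5
  exact Nat.le_of_dvd (Int.natAbs_pos.mpr hc0) h6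

/-- **P2.** Distinct elements of a finite set of algebraic integers stay distinct modulo every
place of large residue characteristic. -/
theorem exists_bound_sep [CharZero L] (R : Set L) (hR : R.Finite)
    (hint : ∀ x ∈ R, IsIntegral ℤ x) :
    ∃ B : ℕ, ∀ ℓ : ℕ, ℓ.Prime → B < ℓ → ∀ A : ValuationSubring L, A.LiesOverPrime ℓ →
      ∀ x ∈ R, ∀ y ∈ R, x - y ∈ A.nonunits → x = y := by
  classical
  let b : L → L → ℕ := fun x y =>
    if h : IsIntegral ℤ (x - y) ∧ x - y ≠ 0 then
      Classical.choose (exists_bound_of_mem_nonunits h.1 h.2) else 0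
  refine ⟨(hR.toFinset ×ˢ hR.toFinset).sup fun p => b p.1 p.2, ?_⟩
  intro ℓ hℓ hB A hA x hx y hy hxy
  by_contra hne
  have h : IsIntegral ℤ (x - y) ∧ x - y ≠ 0 := ⟨(hint x hx).sub (hint y hy), sub_ne_zero.mpr hne⟩
  have h1 : ℓ ≤ b x y := by
    simp only [b, dif_pos h]
    exact Classical.choose_spec (exists_bound_of_mem_nonunits h.1 h.2) ℓ hℓ A hA hxy
  have h2 : b x y ≤ (hR.toFinset ×ˢ hR.toFinset).sup fun p => b p.1 p.2 :=
    Finset.le_sup (f := fun p : L × L => b p.1 p.2) (b := (x, y))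
      (Finset.mem_product.mpr ⟨hR.mem_toFinset.mpr hx, hR.mem_toFinset.mpr hy⟩)
  omega

/-- **P3.** An algebraic integer congruent to elements of a finite set `R` of algebraic integers
modulo places of arbitrarily large residue characteristic belongs to `R`. -/
theorem mem_of_frequently_congr [CharZero L] (R : Set L) (hR : R.Finite)
    (hint : ∀ x ∈ R, IsIntegral ℤ x) {x : L} (hx : IsIntegral ℤ x)
    (h : ∀ B : ℕ, ∃ ℓ : ℕ, ℓ.Prime ∧ B < ℓ ∧ ∃ A : ValuationSubring L, A.LiesOverPrime ℓ ∧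
      ∃ t ∈ R, x - t ∈ A.nonunits) : x ∈ R := by
  obtain ⟨B, hB⟩ := exists_bound_sep (R ∪ {x}) (hR.union (Set.finite_singleton x)) (by
    rintro y (hy | hy)
    · exact hint y hy
    · rw [Set.mem_singleton_iff] at hy
      rw [hy]
      exact hx)
  obtain ⟨ℓ, hℓ, hBℓ, A, hA, t, ht, hxt⟩ := h B
  have := hB ℓ hℓ hBℓ A hA x (Or.inr rfl) t (Or.inl ht) hxt
  rw [this]
  exact ht

end general

/-! ### Sums and products of two roots of unity -/

section roots

variable {Ω : Type*} [Field Ω]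

/-- Sums of two `m`-th roots of unity. -/
def rootSums (Ω : Type*) [Field Ω] (m : ℕ) : Set Ω :=
  {x | ∃ ζ₁ ζ₂ : Ω, ζ₁ ^ m = 1 ∧ ζ₂ ^ m = 1 ∧ x = ζ₁ + ζ₂}

/-- Products of two `m`-th roots of unity. -/
def rootProds (Ω : Type*) [Field Ω] (m : ℕ) : Set Ω :=
  {x | ∃ ζ₁ ζ₂ : Ω, ζ₁ ^ m = 1 ∧ ζ₂ ^ m = 1 ∧ x = ζ₁ * ζ₂}

theorem finite_pow_eq_one {m : ℕ} (hm : 0 < m) : {ζ : Ω | ζ ^ m = 1}.Finite := by
  classical
  refine (nthRootsFinset m (1 : Ω)).finite_toSet.subset ?_
  intro ζ hζ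
  exact (mem_nthRootsFinset hm (1 : Ω)).mpr hζ

theorem rootSums_finite {m : ℕ} (hm : 0 < m) : (rootSums Ω m).Finite := by
  refine ((finite_pow_eq_one (Ω := Ω) hm).image2 (fun a b => a + b)
    (finite_pow_eq_one (Ω := Ω) hm)).subset ?_
  rintro x ⟨a, b, ha, hb, rfl⟩
  exact ⟨a, ha, b, hb, rfl⟩

theorem rootProds_finite {m : ℕ} (hm : 0 < m) : (rootProds Ω m).Finite := by
  refine ((finite_pow_eq_one (Ω := Ω) hm).image2 (fun a b => a * b)
    (finite_pow_eq_one (Ω := Ω) hm)).subset ?_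
  rintro x ⟨a, b, ha, hb, rfl⟩
  exact ⟨a, ha, b, hb, rfl⟩

theorem isIntegral_of_pow_eq_one {m : ℕ} (hm : 0 < m) {ζ : Ω} (h : ζ ^ m = 1) :
    IsIntegral ℤ ζ :=
  IsIntegral.of_pow hm (by rw [h]; exact isIntegral_one)

theorem isIntegral_of_mem_rootSums {m : ℕ} (hm : 0 < m) {x : Ω} (h : x ∈ rootSums Ω m) :
    IsIntegral ℤ x := by
  obtain ⟨a, b, ha, hb, rfl⟩ := h
  exact (isIntegral_of_pow_eq_one hm ha).add (isIntegral_of_pow_eq_one hm hb)

theorem isIntegral_of_mem_rootProds {m : ℕ} (hm : 0 < m) {x : Ω} (h : x ∈ rootProds Ω m) :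
    IsIntegral ℤ x := by
  obtain ⟨a, b, ha, hb, rfl⟩ := h
  exact (isIntegral_of_pow_eq_one hm ha).mul (isIntegral_of_pow_eq_one hm hb)

/-- Trace and determinant of a `2 × 2` matrix of exponent `m`. -/
theorem trace_det_mem_of_pow_eq_one [IsAlgClosed Ω] {M : Matrix (Fin 2) (Fin 2) Ω} {m : ℕ}
    (hM : M ^ m = 1) : M.trace ∈ rootSums Ω m ∧ M.det ∈ rootProds Ω m := by
  obtain ⟨l, k, h1, h2, h3, h4⟩ := Lift.exists_eigenvalues M
  have hl := Lift.pow_eq_one_of_det_sub_eq_zero hM h3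
  have hk := Lift.pow_eq_one_of_det_sub_eq_zero hM h4
  exact ⟨⟨l, k, hl, hk, h1.symm⟩, ⟨l, k, hl, hk, h2.symm⟩⟩

/-- A matrix of finite order with trace `2` and determinant `1` is the identity. -/
theorem eq_one_of_pow_eq_one_of_trace [IsAlgClosed Ω] [CharZero Ω]
    {M : Matrix (Fin 2) (Fin 2) Ω} {m : ℕ} (hm : 0 < m) (hM : M ^ m = 1) (ht : M.trace = 2)
    (hd : M.det = 1) : M = 1 := by
  obtain ⟨l, k, h1, h2, h3, h4⟩ := Lift.exists_eigenvalues M
  have hl := Lift.pow_eq_one_of_det_sub_eq_zero hM h3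
  have hl1 : l = 1 := by
    have : (l - 1) ^ 2 = 0 := by
      rw [ht] at h1
      rw [hd] at h2
      have hk : k = 2 - l := by linear_combination h1
      rw [hk] at h2
      linear_combination -h2
    have := pow_eq_zero_iff (two_ne_zero) |>.mp this
    linear_combination this
  have := Lift.eq_smul_one_of_double_eigenvalue hm hM (l := l)
    (by rw [ht, hl1]; norm_num) (by rw [hd, hl1]; norm_num) hl
  rw [this, hl1, one_smul]

end roots

end Fermat.Agent.S48x.Assembly
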