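/-
helper18.  P-S48 (Deligne-Serre), assembly: conversion of the output contract of DS2
(`DS2.ResidualRepsExist`, residual representations over finite fields for every residue map of
the algebraic integers of `ℂ`) into the input (C) of the assembly (`HasModLReps`, representations
over the prime field with respect to a place of `ℚbar`), at the places of degree one.
-/
import Mathlib
import Fermat.Agent.Lib.FrobeniusValuation
import Fermat.Agent.S48x.DS2.Contract
import Fermat.Agent.S48x.Lift.Realise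
import Fermat.Agent.S48x.Extract.Galois
import Fermat.Agent.S48x.Assembly.Pin

set_option autoImplicit false
set_option linter.style.haveILetI false

namespace Fermat.Agent.S48x.Assembly

open Fermat.Agent.Lib

/-! ### Algebraic numbers in the image of an embedding of `ℚbar` -/

/-- The algebraic elements of a field extension of `ℚbar` come from `ℚbar`. -/
theorem mem_range_of_isIntegral {Ω : Type*} [Field Ω] (ι : Qb →+* Ω) {z : Ω}
    (hz : IsIntegral ℤ z) : z ∈ ι.range := by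
  letI : Algebra Qb Ω := ι.toAlgebra
  have hz' : IsIntegral Qb z := hz.tower_top
  have hdeg := IsAlgClosed.degree_eq_one_of_irreducible Qb (minpoly.irreducible hz')
  exact minpoly.mem_range_of_degree_eq_one Qb z hdeg

theorem isIntegral_of_map {Ω : Type*} [Field Ω] (ι : Qb →+* Ω) {x : Qb}
    (h : IsIntegral ℤ (ι x)) : IsIntegral ℤ x :=
  (isIntegral_algHom_iff ι.toIntAlgHom ι.injective).mp h

/-- The ring isomorphism between the algebraic integers of `ℚbar` and of `ℂ`. -/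
noncomputable def intEquiv (ι : Qb →+* ℂ) : integralClosure ℤ Qb ≃+* integralClosure ℤ ℂ :=
  RingEquiv.ofBijective
    ((ι.comp (integralClosure ℤ Qb).val.toRingHom).codRestrict (integralClosure ℤ ℂ)
      fun x => x.2.map ι.toIntAlgHom)
    ⟨fun x y h => Subtype.ext (ι.injective (congrArg Subtype.val h)), fun z => by
      obtain ⟨x, hx⟩ := mem_range_of_isIntegral ι z.2
      have hxint : IsIntegral ℤ x := isIntegral_of_map ι (by rw [hx]; exact z.2)
      exact ⟨⟨x, hxint⟩, Subtype.ext hx⟩⟩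

theorem intEquiv_apply (ι : Qb →+* ℂ) (x : integralClosure ℤ Qb) :
    ((intEquiv ι x : integralClosure ℤ ℂ) : ℂ) = ι x := rfl

/-- The inclusion of the algebraic integers into a valuation subring. -/
noncomputable def intToPlace (A : ValuationSubring Qb) : integralClosure ℤ Qb →+* A :=
  ((integralClosure ℤ Qb).val.toRingHom).codRestrict A
    fun x => mem_valuationSubring_of_isIntegral A x.2

/-- The residue map of the algebraic integers of `ℂ` attached to a place of `ℚbar`. -/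
noncomputable def placeHom (ι : Qb →+* ℂ) (A : ValuationSubring Qb) :
    integralClosure ℤ ℂ →+* IsLocalRing.ResidueField A :=
  (IsLocalRing.residue A).comp ((intToPlace A).comp (intEquiv ι).symm.toRingHom)

theorem residue_eq_zero_iff (A : ValuationSubring Qb) (y : A) :
    IsLocalRing.residue A y = 0 ↔ (y : Qb) ∈ A.nonunits := by
  rw [IsLocalRing.residue_eq_zero_iff, ValuationSubring.mem_nonunits_iff_exists_mem_maximalIdeal]
  constructor
  · intro h
    exact ⟨y.2, h⟩
  · rintro ⟨_, h⟩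
    exact h

theorem placeHom_apply (ι : Qb →+* ℂ) (A : ValuationSubring Qb) (x : Qb) (hx : IsIntegral ℤ x)
    (hz : IsIntegral ℤ (ι x)) :
    placeHom ι A ⟨ι x, hz⟩ =
      IsLocalRing.residue A ⟨x, mem_valuationSubring_of_isIntegral A hx⟩ := by
  have h1 : (intEquiv ι).symm ⟨ι x, hz⟩ = ⟨x, hx⟩ := by
    rw [RingEquiv.symm_apply_eq]
    exact Subtype.ext rfl
  unfold placeHom
  simp only [RingHom.comp_apply, RingEquiv.toRingHom_eq_coe, RingHom.coe_coe, h1]
  rfl

/-- The key property of the residue map: congruences to rational integers. -/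
theorem placeHom_eq_intCast_iff (ι : Qb →+* ℂ) (A : ValuationSubring Qb) (x : Qb)
    (hz : IsIntegral ℤ (ι x)) (n : ℤ) :
    placeHom ι A ⟨ι x, hz⟩ = (n : IsLocalRing.ResidueField A) ↔ x - n ∈ A.nonunits := by
  have hx : IsIntegral ℤ x := isIntegral_of_map ι hz
  rw [placeHom_apply ι A x hx hz, ← sub_eq_zero]
  have h1 : (n : IsLocalRing.ResidueField A) = IsLocalRing.residue A (n : A) :=
    (map_intCast (IsLocalRing.residue A) n).symm
  rw [h1, ← map_sub, residue_eq_zero_iff]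
  have h2 : (((⟨x, mem_valuationSubring_of_isIntegral A hx⟩ : A) - (n : A) : A) : Qb) = x - n := by
    push_cast
    rfl
  rw [h2]

/-- The residue field of a place over `ℓ` has characteristic `ℓ`. -/
theorem charP_residueField {ℓ : ℕ} (hℓ : ℓ.Prime) (A : ValuationSubring Qb)
    (hA : A.LiesOverPrime ℓ) : CharP (IsLocalRing.ResidueField A) ℓ := by
  have h0 : ((ℓ : ℕ) : IsLocalRing.ResidueField A) = 0 := by
    have h1 : ((ℓ : ℕ) : IsLocalRing.ResidueField A) = IsLocalRing.residue A ((ℓ : ℕ) : A) :=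
      (map_natCast (IsLocalRing.residue A) ℓ).symm
    rw [h1, residue_eq_zero_iff]
    have : (((ℓ : ℕ) : A) : Qb) = (ℓ : Qb) := by push_cast; rfl
    rw [this]
    exact hA
  obtain ⟨q, hq⟩ := CharP.exists (IsLocalRing.ResidueField A)
  have hdvd : q ∣ ℓ := (CharP.cast_eq_zero_iff (IsLocalRing.ResidueField A) q ℓ).mp h0
  rcases (Nat.dvd_prime hℓ).mp hdvd with h | h
  · subst h
    have h1 := CharP.cast_eq_zero (IsLocalRing.ResidueField A) 1
    rw [Nat.cast_one] at h1
    exact absurd h1 one_ne_zero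
  · rw [← h]
    exact hq

/-! ### Restriction of the eigen-data to a multiple of the level -/

/-- The eigen-data seen at a multiple of the level. -/
def EigenData.restrict {N : ℕ} (D : EigenData N) (c : ℕ) : EigenData (c * N) where
  α := D.α
  ee := D.ee
  α_int p hp hpN := D.α_int p hp fun h => hpN (Dvd.dvd.mul_left h c)
  ee_int p hp hpN := D.ee_int p hp fun h => hpN (Dvd.dvd.mul_left h c)
  K := D.K
  K_fin := D.K_fin
  α_mem p hp hpN := D.α_mem p hp fun h => hpN (Dvd.dvd.mul_left h c)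
  ee_mem p hp hpN := D.ee_mem p hp fun h => hpN (Dvd.dvd.mul_left h c)
  ee_fin := D.ee_fin.subset fun _ ⟨p, hp, hpN, hx⟩ =>
    ⟨p, hp, fun h => hpN (Dvd.dvd.mul_left h c), hx⟩

theorem RankinAll.restrict {N : ℕ} {D : EigenData N} (h : RankinAll D) (c : ℕ) :
    RankinAll (D.restrict c) := by
  intro τ
  obtain ⟨C, hC⟩ := h τ
  exact ⟨C, fun s hs hs2 P hP => hC s hs hs2 P fun p hp =>
    ⟨(hP p hp).1, fun h => (hP p hp).2 (Dvd.dvd.mul_left h c)⟩⟩

/-! ### The conversion -/

/-- **(C) from the DS2 contract**, at the places of degree one, for the family of representations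
which are good outside `c N ℓ`. -/
theorem hasModLReps_of_family {N c : ℕ} (hN : N ≠ 0) (hc : c ≠ 0) (ε : DirichletCharacter ℂ N)
    (a : ℕ → ℂ) (ι : Qb →+* ℂ) (D : EigenData N)
    (hα : ∀ p : ℕ, p.Prime → ¬ p ∣ N → ι (D.α p) = a p)
    (hee : ∀ p : ℕ, p.Prime → ¬ p ∣ N → ι (D.ee p) = ε (p : ZMod N))
    (hdeg : ∀ B : ℕ, ∃ ℓ : ℕ, B < ℓ ∧ ℓ.Prime ∧ ∃ A : ValuationSubring Qb, A.LiesOverPrime ℓ ∧
      ∀ x ∈ D.K, IsIntegral ℤ x → ∃ n : ℤ, x - n ∈ A.nonunits)
    (hC : ∃ Bad : Finset ℕ, ∀ ℓ : ℕ, ℓ.Prime → ℓ ∉ Bad → ∀ (k : Type) [Field k] [CharP k ℓ]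
      (φ : integralClosure ℤ ℂ →+* k), DS2.ResidualRepAt N ε a (c * N * ℓ) φ) :
    HasModLReps (D.restrict c) := by
  classical
  obtain ⟨Bad, hBad⟩ := hC
  intro B
  obtain ⟨ℓ, hBℓ, hℓ, A, hA, hone⟩ := hdeg (max B (Bad.sup id))
  have hℓBad : ℓ ∉ Bad := by
    intro h
    have h1 : ℓ ≤ Bad.sup id := Finset.le_sup (f := id) h
    have := le_max_right B (Bad.sup id)
    omega
  refine ⟨ℓ, lt_of_le_of_lt (le_max_left _ _) hBℓ, hℓ, ?_⟩
  haveI : Fact ℓ.Prime := ⟨hℓ⟩
  haveI hchar : CharP (IsLocalRing.ResidueField A) ℓ := charP_residueField hℓ A hA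
  set φ := placeHom ι A with hφ
  obtain ⟨k', instF, instFin, j, ρ, hfl, hss, hrest⟩ :=
    hBad ℓ hℓ hℓBad (IsLocalRing.ResidueField A) φ
  haveI hchar' : CharP k' ℓ := (RingHom.charP_iff j j.injective ℓ).mpr hchar
  have hNℓ : c * N * ℓ ≠ 0 := mul_ne_zero (mul_ne_zero hc hN) hℓ.ne_zero
  have hdvdN : ∀ p : ℕ, ¬ p ∣ c * N * ℓ → ¬ p ∣ N := fun p hp h =>
    hp (Dvd.dvd.mul_right (Dvd.dvd.mul_left h c) ℓ)
  -- integrality of the complex eigenvalues
  have haint : ∀ p : ℕ, p.Prime → ¬ p ∣ N → IsIntegral ℤ (a p) := fun p hp hpN => by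
    rw [← hα p hp hpN]
    exact (D.α_int p hp hpN).map ι.toIntAlgHom
  have heint : ∀ p : ℕ, p.Prime → ¬ p ∣ N → IsIntegral ℤ (ε (p : ZMod N)) := fun p hp hpN => by
    rw [← hee p hp hpN]
    exact (D.ee_int p hp hpN).map ι.toIntAlgHom
  -- the values at Frobenius elements
  have hfrobval : ∀ p : ℕ, p.Prime → ¬ p ∣ c * N * ℓ → ∀ A' : ValuationSubring Qb,
      A'.LiesOverPrime p → ∀ σ : GQ, A'.IsFrobeniusAt σ p → ∀ n : ℤ,
      (((ρ σ : GL (Fin 2) k') : Matrix (Fin 2) (Fin 2) k').trace = (n : k') ↔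
        D.α p - n ∈ A.nonunits) ∧
      (((ρ σ : GL (Fin 2) k') : Matrix (Fin 2) (Fin 2) k').det = (n : k') ↔
        D.ee p - n ∈ A.nonunits) := by
    intro p hp hpNℓ A' hA' σ hσ n
    have hpN : ¬ p ∣ N := hdvdN p hpNℓ
    have h1 := (hrest p hp hpNℓ A' hA').2 σ hσ ⟨a p, haint p hp hpN⟩
      ⟨ε (p : ZMod N), heint p hp hpN⟩ rfl rfl
    have hzα : IsIntegral ℤ (ι (D.α p)) := by rw [hα p hp hpN]; exact haint p hp hpN
    have hze : IsIntegral ℤ (ι (D.ee p)) := by rw [hee p hp hpN]; exact heint p hp hpN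
    have hx : (⟨a p, haint p hp hpN⟩ : integralClosure ℤ ℂ) = ⟨ι (D.α p), hzα⟩ :=
      Subtype.ext (hα p hp hpN).symm
    have hy : (⟨ε (p : ZMod N), heint p hp hpN⟩ : integralClosure ℤ ℂ) = ⟨ι (D.ee p), hze⟩ :=
      Subtype.ext (hee p hp hpN).symm
    have hjn : j (n : k') = (n : IsLocalRing.ResidueField A) := map_intCast j n
    constructor
    · rw [← placeHom_eq_intCast_iff ι A (D.α p) hzα n, ← hx, ← h1.1, ← hjn]
      exact ⟨fun h => by rw [h], fun h => j.injective h⟩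
    · rw [← placeHom_eq_intCast_iff ι A (D.ee p) hze n, ← hy, ← h1.2, ← hjn]
      exact ⟨fun h => by rw [h], fun h => j.injective h⟩
  -- traces and determinants lie in the prime field
  have hcast : ∀ n : ℤ, ZMod.castHom (dvd_refl ℓ) k' (n : ZMod ℓ) = (n : k') :=
    fun n => map_intCast _ n
  have htrdet : ∀ g : GQ, (∃ t : ZMod ℓ, ZMod.castHom (dvd_refl ℓ) k' t =
        ((ρ g : GL (Fin 2) k') : Matrix (Fin 2) (Fin 2) k').trace) ∧
      (∃ t : ZMod ℓ, ZMod.castHom (dvd_refl ℓ) k' t =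
        ((ρ g : GL (Fin 2) k') : Matrix (Fin 2) (Fin 2) k').det) := by
    intro g
    obtain ⟨p, hp, hpS, A', hA', σ, hσ, heq⟩ :=
      Extract.exists_frobenius_eq ρ hfl g (c * N * ℓ).primeFactors
    have hpNℓ : ¬ p ∣ c * N * ℓ := fun h => hpS (Nat.mem_primeFactors.mpr ⟨hp, h, hNℓ⟩)
    have hpN : ¬ p ∣ N := hdvdN p hpNℓ
    obtain ⟨n, hn⟩ := hone (D.α p) (D.α_mem p hp hpN) (D.α_int p hp hpN)
    obtain ⟨n', hn'⟩ := hone (D.ee p) (D.ee_mem p hp hpN) (D.ee_int p hp hpN)
    rw [← heq]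
    exact ⟨⟨(n : ZMod ℓ), by
        rw [hcast]; exact (((hfrobval p hp hpNℓ A' hA' σ hσ n).1).mpr hn).symm⟩,
      ⟨(n' : ZMod ℓ), by
        rw [hcast]; exact (((hfrobval p hp hpNℓ A' hA' σ hσ n').2).mpr hn').symm⟩⟩
  obtain ⟨r', htr', hdet', hker, hss', -⟩ :=
    Lift.Realise.exists_realisation_zmod_charP ℓ ρ hss (fun g => (htrdet g).1)
      (fun g => (htrdet g).2)
  refine ⟨{
    A := A
    hA := hA
    r := r'
    finite_level := ?_
    weakSS := hss'
    unram := ?_
    frob := ?_ }⟩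
  · obtain ⟨L, hL, h1⟩ := hfl
    exact ⟨L, hL, fun σ hσ => (hker σ).mpr (h1 σ hσ)⟩
  · intro p hp hpNℓ A' hA' σ hσ
    exact (hker σ).mpr ((hrest p hp hpNℓ A' hA').1 σ hσ)
  · intro p hp hpNℓ A' hA' σ hσ n
    constructor
    · intro hn
      apply ((hfrobval p hp hpNℓ A' hA' σ hσ n).1).mp
      rw [← htr' σ, ← hn, hcast]
    · intro hn
      apply ((hfrobval p hp hpNℓ A' hA' σ hσ n).2).mp
      rw [← hdet' σ, ← hn, hcast]

end Fermat.Agent.S48x.Assembly
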