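/-
helper18.  P-S48 (Deligne-Serre), assembly: conversion of the `ℂ`-language output of DS0
(integrality, number field, Rankin bound for all conjugates) into the `ℚbar`-language inputs
(A), (B) of the assembly (`EigenData`, `RankinAll`).
-/
import Mathlib
import Fermat.Agent.S48x.Assembly.GlueC

set_option autoImplicit false
set_option linter.style.haveILetI false

namespace Fermat.Agent.S48x.Assembly

/-- An embedding of `ℚbar` into `ℂ`. -/
noncomputable def iotaC : Qb →ₐ[ℚ] ℂ := IsAlgClosed.lift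

/-- The values of a Dirichlet character at the primes not dividing the level are algebraic
integers. -/
theorem isIntegral_dirichlet {N : ℕ} [NeZero N] (ε : DirichletCharacter ℂ N) {p : ℕ}
    (hp : p.Prime) (hpN : ¬ p ∣ N) : IsIntegral ℤ (ε (p : ZMod N)) := by
  have hcop : Nat.Coprime p N := (Nat.Prime.coprime_iff_not_dvd hp).mpr hpN
  set u : (ZMod N)ˣ := ZMod.unitOfCoprime p hcop with hu
  have hu' : ((u : (ZMod N)ˣ) : ZMod N) = (p : ZMod N) := ZMod.coe_unitOfCoprime p hcop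
  have h1 : ε (p : ZMod N) ^ Fintype.card (ZMod N)ˣ = 1 := by
    rw [← hu', ← map_pow, ← Units.val_pow_eq_pow_val, pow_card_eq_one, Units.val_one, map_one]
  exact IsIntegral.of_pow Fintype.card_pos (by rw [h1]; exact isIntegral_one)

section field

variable (ι : Qb →ₐ[ℚ] ℂ) (K : IntermediateField ℚ ℂ)

theorem mem_comap_iff {x : Qb} : x ∈ K.comap ι ↔ ι x ∈ K := Iff.rfl

/-- The restriction of `ι` to the preimage of `K`. -/
noncomputable def comapHom : (K.comap ι) →ₐ[ℚ] K.toSubalgebra :=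
  (ι.comp (K.comap ι).val).codRestrict K.toSubalgebra fun x => x.2

theorem comapHom_injective : Function.Injective (comapHom ι K) := fun _ _ h =>
  Subtype.ext (ι.toRingHom.injective (congrArg Subtype.val h))

theorem comapHom_surjective (hK : ∀ z ∈ K, IsAlgebraic ℚ z) :
    Function.Surjective (comapHom ι K) := by
  intro z
  have hz : IsIntegral ℚ (z : ℂ) := (hK z z.2).isIntegral
  have hmem : (z : ℂ) ∈ (ι : Qb →+* ℂ).range := by
    letI : Algebra Qb ℂ := (ι : Qb →+* ℂ).toAlgebra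
    have hz' : IsIntegral Qb (z : ℂ) := by
      have : IsScalarTower ℚ Qb ℂ := IsScalarTower.of_algebraMap_eq fun q => (ι.commutes q).symm
      exact hz.tower_top
    have hdeg := IsAlgClosed.degree_eq_one_of_irreducible Qb (minpoly.irreducible hz')
    exact minpoly.mem_range_of_degree_eq_one Qb (z : ℂ) hdeg
  obtain ⟨x, hx⟩ := hmem
  have hx' : ι x = (z : ℂ) := hx
  exact ⟨⟨x, by rw [mem_comap_iff, hx']; exact z.2⟩, Subtype.ext hx'⟩

theorem finiteDimensional_comap [FiniteDimensional ℚ K] : FiniteDimensional ℚ (K.comap ι) := by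
  haveI : FiniteDimensional ℚ K.toSubalgebra := ‹FiniteDimensional ℚ K›
  exact FiniteDimensional.of_injective (comapHom ι K).toLinearMap (comapHom_injective ι K)

/-- The inverse of `ι` on `K`. -/
noncomputable def sectionHom (hK : ∀ z ∈ K, IsAlgebraic ℚ z) : K →+* Qb :=
  ((K.comap ι).val : (K.comap ι) →+* Qb).comp
    ((AlgEquiv.ofBijective (comapHom ι K)
      ⟨comapHom_injective ι K, comapHom_surjective ι K hK⟩).symm : K.toSubalgebra →+* K.comap ι)

theorem iota_sectionHom (hK : ∀ z ∈ K, IsAlgebraic ℚ z) (x : K) :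
    ι (sectionHom ι K hK x) = (x : ℂ) := by
  set e := AlgEquiv.ofBijective (comapHom ι K)
    ⟨comapHom_injective ι K, comapHom_surjective ι K hK⟩ with he
  have h1 : e (e.symm x) = x := e.apply_symm_apply x
  have h2 : ((e (e.symm x) : K.toSubalgebra) : ℂ) = ι ((e.symm x : K.comap ι) : Qb) := rfl
  have h3 : sectionHom ι K hK x = ((e.symm x : K.comap ι) : Qb) := rfl
  rw [h3, ← h2, h1]

end field

/-- **(A), (B) from the DS0 output.** -/
theorem exists_eigenData {N : ℕ} [NeZero N] (ε : DirichletCharacter ℂ N) (a : ℕ → ℂ)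
    (hint : ∀ p : ℕ, p.Prime → ¬ p ∣ N → IsIntegral ℤ (a p))
    (hK : ∃ K : IntermediateField ℚ ℂ, FiniteDimensional ℚ K ∧ (∀ z ∈ K, IsAlgebraic ℚ z) ∧
      (∀ p : ℕ, p.Prime → ¬ p ∣ N → a p ∈ K) ∧ (∀ x : ZMod N, ε x ∈ K) ∧
      ∀ (τ : K →+* ℂ) (b : ℕ → ℂ),
        (∀ p : ℕ, p.Prime → ¬ p ∣ N → ∃ x : K, (x : ℂ) = a p ∧ τ x = b p) →
        ∃ C : ℝ, ∀ s : ℝ, 1 < s → s ≤ 2 → ∀ P : Finset ℕ, (∀ p ∈ P, p.Prime ∧ ¬ p ∣ N) →
          ∑ p ∈ P, ‖b p‖ ^ 2 * (p : ℝ) ^ (-s) ≤ Real.log (1 / (s - 1)) + C) :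
    ∃ D : EigenData N,
      (∀ p : ℕ, p.Prime → ¬ p ∣ N → (iotaC : Qb →+* ℂ) (D.α p) = a p) ∧
      (∀ p : ℕ, p.Prime → ¬ p ∣ N → (iotaC : Qb →+* ℂ) (D.ee p) = ε (p : ZMod N)) ∧
      RankinAll D := by
  classical
  obtain ⟨K, hKfd, hKalg, hKa, hKε, hRankin⟩ := hK
  set ι : Qb →+* ℂ := (iotaC : Qb →+* ℂ) with hι
  -- preimages
  have hexα : ∀ p : ℕ, ∃ x : Qb, p.Prime → ¬ p ∣ N → ι x = a p := fun p => by
    by_cases h : p.Prime ∧ ¬ p ∣ N
    · obtain ⟨x, hx⟩ := mem_range_of_isIntegral ι (hint p h.1 h.2)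
      exact ⟨x, fun _ _ => hx⟩
    · exact ⟨0, fun h1 h2 => absurd ⟨h1, h2⟩ h⟩
  have hexe : ∀ p : ℕ, ∃ x : Qb, p.Prime → ¬ p ∣ N → ι x = ε (p : ZMod N) := fun p => by
    by_cases h : p.Prime ∧ ¬ p ∣ N
    · obtain ⟨x, hx⟩ := mem_range_of_isIntegral ι (isIntegral_dirichlet ε h.1 h.2)
      exact ⟨x, fun _ _ => hx⟩
    · exact ⟨0, fun h1 h2 => absurd ⟨h1, h2⟩ h⟩
  choose α hα using hexα
  choose ee hee using hexe
  haveI := hKfd
  haveI hfdc : FiniteDimensional ℚ (K.comap iotaC) := finiteDimensional_comap iotaC K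
  let D : EigenData N :=
    { α := α
      ee := ee
      α_int := fun p hp hpN => isIntegral_of_map ι (by rw [hα p hp hpN]; exact hint p hp hpN)
      ee_int := fun p hp hpN =>
        isIntegral_of_map ι (by rw [hee p hp hpN]; exact isIntegral_dirichlet ε hp hpN)
      K := K.comap iotaC
      K_fin := hfdc
      α_mem := fun p hp hpN => by
        rw [mem_comap_iff]
        have : iotaC (α p) = a p := hα p hp hpN
        rw [this]
        exact hKa p hp hpN
      ee_mem := fun p hp hpN => by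
        rw [mem_comap_iff]
        have : iotaC (ee p) = ε (p : ZMod N) := hee p hp hpN
        rw [this]
        exact hKε _
      ee_fin := by
        refine ((Set.finite_range ε).preimage (Set.injOn_of_injective ι.injective)).subset ?_
        rintro x ⟨p, hp, hpN, rfl⟩
        exact ⟨(p : ZMod N), (hee p hp hpN).symm⟩ }
  refine ⟨D, hα, hee, ?_⟩
  intro τ'
  have key := hRankin (τ'.comp (sectionHom iotaC K hKalg)) (fun p => τ' (α p)) (by
    intro p hp hpN
    refine ⟨⟨a p, hKa p hp hpN⟩, rfl, ?_⟩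
    rw [RingHom.comp_apply]
    congr 1
    apply ι.injective
    have h1 := iota_sectionHom iotaC K hKalg ⟨a p, hKa p hp hpN⟩
    have h2 : ι (α p) = a p := hα p hp hpN
    rw [h2]
    exact h1)
  exact key

end Fermat.Agent.S48x.Assembly
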