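/-
helper18.  P-S48 (Deligne-Serre), assembly: Deligne-Serre (8.3).  From the Rankin bound for all
conjugates, outside a set of primes of small upper density the eigenvalues `α p` belong to a
finite set.
-/
import Mathlib
import Fermat.Agent.S48x.Assembly.Defs

set_option autoImplicit false
set_option linter.style.haveILetI false

namespace Fermat.Agent.S48x.Assembly

open Finset

/-- Every embedding of a subfield of `ℚbar` into `ℂ` extends to `ℚbar`. -/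
theorem exists_extend (K : IntermediateField ℚ Qb) (φ : K →+* ℂ) :
    ∃ τ : Qb →+* ℂ, ∀ x : K, τ (x : Qb) = φ x := by
  letI : Algebra K ℂ := φ.toAlgebra
  haveI : Algebra.IsAlgebraic K Qb := Algebra.IsAlgebraic.tower_top (K := ℚ) K
  let τ : Qb →ₐ[K] ℂ := IsAlgClosed.lift
  exact ⟨τ.toRingHom, fun x => τ.commutes x⟩

theorem log_inv_sub_one_pos {s : ℝ} (hs : 1 < s) (hs2 : s < 2) : 0 < Real.log (1 / (s - 1)) := by
  apply Real.log_pos
  rw [lt_div_iff₀ (by linarith)]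
  linarith

theorem lt_log_inv_sub_one {s L₀ : ℝ} (hs : 1 < s) (h : s < 1 + Real.exp (-L₀)) :
    L₀ < Real.log (1 / (s - 1)) := by
  have h1 : 0 < s - 1 := by linarith
  rw [Real.lt_log_iff_exp_lt (by positivity), lt_div_iff₀ h1]
  have h2 : s - 1 < Real.exp (-L₀) := by linarith
  calc Real.exp L₀ * (s - 1) < Real.exp L₀ * Real.exp (-L₀) :=
        mul_lt_mul_of_pos_left h2 (Real.exp_pos _)
    _ = 1 := by rw [← Real.exp_add, add_neg_cancel, Real.exp_zero]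

/-- **Deligne-Serre (8.3).**  For every `η > 0` there is a finite set `Y` such that the set of
primes `p ∤ N` with `α p ∉ Y` has upper logarithmic density at most `η`. -/
theorem exists_finite_exceptional {N : ℕ} (D : EigenData N) (hR : RankinAll D) (η : ℝ)
    (hη : 0 < η) :
    ∃ Y : Set Qb, Y.Finite ∧
      UpperLogDensityLE {p | p.Prime ∧ ¬ p ∣ N ∧ D.α p ∉ Y} η := by
  classical
  haveI := D.K_fin
  haveI : NumberField D.K := NumberField.mk
  -- extensions of the embeddings and their Rankin constants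
  choose τ hτ using fun φ : D.K →+* ℂ => exists_extend D.K φ
  choose C hC using fun φ : D.K →+* ℂ => hR (τ φ)
  set r : ℝ := (Fintype.card (D.K →+* ℂ) : ℝ) with hr
  set Ctot : ℝ := ∑ φ : D.K →+* ℂ, C φ with hCtot
  have hr0 : 0 ≤ r := Nat.cast_nonneg _
  -- the bound
  set b : ℝ := 2 * r / η + 1 with hb
  have hb1 : 1 ≤ b := by
    have : 0 ≤ 2 * r / η := by positivity
    linarith
  have hbsq : 2 * r / η ≤ b ^ 2 := by
    have : b ≤ b ^ 2 := by nlinarith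
    linarith
  have hb2pos : 0 < b ^ 2 := by positivity
  refine ⟨(fun x : D.K => (x : Qb)) ''
    {x : D.K | IsIntegral ℤ x ∧ ∀ φ : D.K →+* ℂ, ‖φ x‖ ≤ b},
    (NumberField.Embeddings.finite_of_norm_le D.K ℂ b).image _, ?_⟩
  set Y : Set Qb := (fun x : D.K => (x : Qb)) ''
    {x : D.K | IsIntegral ℤ x ∧ ∀ φ : D.K →+* ℂ, ‖φ x‖ ≤ b} with hY
  -- a prime with `α p ∉ Y` has a large conjugate
  have hlarge : ∀ p : ℕ, p.Prime → ¬ p ∣ N → D.α p ∉ Y →
      b ^ 2 ≤ ∑ φ : D.K →+* ℂ, ‖τ φ (D.α p)‖ ^ 2 := by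
    intro p hp hpN hpY
    set x : D.K := ⟨D.α p, D.α_mem p hp hpN⟩ with hx
    have hxint : IsIntegral ℤ x := by
      have h1 : IsIntegral ℤ ((algebraMap D.K Qb) x) := D.α_int p hp hpN
      exact (isIntegral_algebraMap_iff (algebraMap D.K Qb).injective).mp h1
    have hex : ∃ φ : D.K →+* ℂ, b < ‖φ x‖ := by
      by_contra hcon
      push Not at hcon
      exact hpY ⟨x, ⟨hxint, hcon⟩, rfl⟩
    obtain ⟨φ, hφ⟩ := hex
    have h1 : ‖τ φ (D.α p)‖ = ‖φ x‖ := by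
      rw [← hτ φ x]
    calc b ^ 2 ≤ ‖φ x‖ ^ 2 := by
          apply pow_le_pow_left₀ (by linarith) hφ.le
      _ = ‖τ φ (D.α p)‖ ^ 2 := by rw [h1]
      _ ≤ ∑ φ : D.K →+* ℂ, ‖τ φ (D.α p)‖ ^ 2 :=
          Finset.single_le_sum (f := fun φ : D.K →+* ℂ => ‖τ φ (D.α p)‖ ^ 2)
            (fun i _ => by positivity) (Finset.mem_univ φ)
  refine ⟨Ctot / b ^ 2, ?_⟩
  intro s hs hs2 P hP
  set L : ℝ := Real.log (1 / (s - 1)) with hL
  have hLnonneg : 0 ≤ L := by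
    apply Real.log_nonneg
    rw [le_div_iff₀ (by linarith)]
    linarith
  have hPN : ∀ p ∈ P, p.Prime ∧ ¬ p ∣ N := fun p hp => ⟨(hP p hp).1, (hP p hp).2.2.1⟩
  -- sum of the Rankin bounds
  have hsum : ∑ φ : D.K →+* ℂ, ∑ p ∈ P, ‖τ φ (D.α p)‖ ^ 2 * (p : ℝ) ^ (-s) ≤ r * L + Ctot := by
    calc ∑ φ : D.K →+* ℂ, ∑ p ∈ P, ‖τ φ (D.α p)‖ ^ 2 * (p : ℝ) ^ (-s)
        ≤ ∑ φ : D.K →+* ℂ, (L + C φ) :=
          Finset.sum_le_sum fun φ _ => hC φ s hs hs2 P hPN
      _ = r * L + Ctot := by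
          rw [Finset.sum_add_distrib, Finset.sum_const, Finset.card_univ, nsmul_eq_mul]
  have hlow : b ^ 2 * ∑ p ∈ P, (p : ℝ) ^ (-s) ≤
      ∑ φ : D.K →+* ℂ, ∑ p ∈ P, ‖τ φ (D.α p)‖ ^ 2 * (p : ℝ) ^ (-s) := by
    rw [Finset.sum_comm, Finset.mul_sum]
    apply Finset.sum_le_sum
    intro p hp
    rw [← Finset.sum_mul]
    have h0 : (0 : ℝ) ≤ (p : ℝ) ^ (-s) := Real.rpow_nonneg (Nat.cast_nonneg _) _
    exact mul_le_mul_of_nonneg_right
      (hlarge p (hP p hp).1 (hP p hp).2.2.1 (hP p hp).2.2.2) h0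
  have hmain : b ^ 2 * ∑ p ∈ P, (p : ℝ) ^ (-s) ≤ r * L + Ctot := hlow.trans hsum
  -- conclude
  have h1 : r * L ≤ b ^ 2 * (η * L) := by
    have : r ≤ b ^ 2 * η := by
      have := mul_le_mul_of_nonneg_right hbsq hη.le
      have h2 : 2 * r / η * η = 2 * r := by field_simp
      nlinarith
    calc r * L ≤ b ^ 2 * η * L := mul_le_mul_of_nonneg_right this hLnonneg
      _ = b ^ 2 * (η * L) := by ring
  have h3 : b ^ 2 * ∑ p ∈ P, (p : ℝ) ^ (-s) ≤ b ^ 2 * (η * L + Ctot / b ^ 2) := by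
    calc b ^ 2 * ∑ p ∈ P, (p : ℝ) ^ (-s) ≤ r * L + Ctot := hmain
      _ ≤ b ^ 2 * (η * L) + Ctot := by linarith
      _ = b ^ 2 * (η * L + Ctot / b ^ 2) := by field_simp
  exact le_of_mul_le_mul_left h3 hb2pos

end Fermat.Agent.S48x.Assembly
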