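import Mathlib
import Fermat.Prelude.Def_Deformations_MatrixRepresentation
import Fermat.Agent.S48x.Lift.Algebraic

/-!
# The finite-order `2 × 2` toolkit (P-S48, DS4/DS5 assembly, Steps 3-5)

* (F1) trace and determinant of an element of finite order of `GL₂(F)`, `F` algebraically closed,
  are `z + z'` and `z z'` for two roots of unity; (F1') the set `rootPairs F m` of such pairs is
  finite.
* (F2) an element of finite order of `GL₂(ℂ)` with trace `2` is the identity (also over any field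
  which embeds into `ℂ`).
* (F3) `tr (g²) = (tr g)² - 2 det g`.
* (F4) a reducible `ρ : Γ →* GL₂(k)` has a common eigenvector, and then `tr ρ = χ₁ + χ₂`,
  `det ρ = χ₁ χ₂` for two characters `χ₁ χ₂ : Γ →* kˣ`, both trivial on the kernel of `ρ`.
* (F5) for two characters of a finite group `H` with values in `ℂˣ`:
  `∑ h, ‖χ₁ h + χ₂ h‖² ≥ 2 |H|`.
-/

set_option autoImplicit false

namespace Fermat.Agent.S48x.Assembly

open Matrix

/-! ### (F1), (F1') -/

section F1

variable {F : Type*} [Field F]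

/-- (F1), matrix form: trace and determinant of a `2 × 2` matrix with `M ^ m = 1` over an
algebraically closed field are `z + z'` and `z z'` for `m`-th roots of unity `z z'`. -/
theorem exists_roots_of_matrix_pow_eq_one [IsAlgClosed F] {M : Matrix (Fin 2) (Fin 2) F} {m : ℕ}
    (hM : M ^ m = 1) :
    ∃ z z' : F, z ^ m = 1 ∧ z' ^ m = 1 ∧ M.trace = z + z' ∧ M.det = z * z' := by
  obtain ⟨l, k, h1, h2, h3, h4⟩ := Lift.exists_eigenvalues M
  exact ⟨l, k, Lift.pow_eq_one_of_det_sub_eq_zero hM h3, Lift.pow_eq_one_of_det_sub_eq_zero hM h4,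
    h1.symm, h2.symm⟩

theorem val_pow_eq_one {g : GL (Fin 2) F} {m : ℕ} (hg : g ^ m = 1) :
    (g : Matrix (Fin 2) (Fin 2) F) ^ m = 1 := by
  have := congrArg (fun u : GL (Fin 2) F => (u : Matrix (Fin 2) (Fin 2) F)) hg
  simpa using this

/-- **(F1)** -/
theorem exists_roots_of_pow_eq_one [IsAlgClosed F] (g : GL (Fin 2) F) {m : ℕ} (_hm : 0 < m)
    (hg : g ^ m = 1) :
    ∃ z z' : F, z ^ m = 1 ∧ z' ^ m = 1 ∧
      (g : Matrix (Fin 2) (Fin 2) F).trace = z + z' ∧
      (g : Matrix (Fin 2) (Fin 2) F).det = z * z' :=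
  exists_roots_of_matrix_pow_eq_one (val_pow_eq_one hg)

/-- **(F1')** The pairs `(z + z', z z')` with `z z'` both `m`-th roots of unity. -/
def rootPairs (F : Type*) [Field F] (m : ℕ) : Set (F × F) :=
  {p | ∃ z z' : F, z ^ m = 1 ∧ z' ^ m = 1 ∧ p = (z + z', z * z')}

theorem mem_rootPairs {m : ℕ} {p : F × F} :
    p ∈ rootPairs F m ↔ ∃ z z' : F, z ^ m = 1 ∧ z' ^ m = 1 ∧ p = (z + z', z * z') := Iff.rfl

theorem finite_setOf_pow_eq_one (F : Type*) [Field F] {m : ℕ} (hm : 0 < m) :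
    {z : F | z ^ m = 1}.Finite := by
  classical
  refine (Finset.finite_toSet (Polynomial.nthRoots m (1 : F)).toFinset).subset ?_
  intro z hz
  simp only [Finset.mem_coe, Multiset.mem_toFinset, Polynomial.mem_nthRoots hm]
  exact hz

theorem rootPairs_finite (F : Type*) [Field F] {m : ℕ} (hm : 0 < m) : (rootPairs F m).Finite := by
  have hroots := finite_setOf_pow_eq_one F hm
  refine ((hroots.prod hroots).image (fun p : F × F => (p.1 + p.2, p.1 * p.2))).subset ?_
  rintro p ⟨z, z', hz, hz', rfl⟩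
  exact ⟨(z, z'), ⟨hz, hz'⟩, rfl⟩

theorem rootPairs_mono {m n : ℕ} (h : m ∣ n) : rootPairs F m ⊆ rootPairs F n := by
  rintro p ⟨z, z', hz, hz', rfl⟩
  obtain ⟨d, rfl⟩ := h
  exact ⟨z, z', by rw [pow_mul, hz, one_pow], by rw [pow_mul, hz', one_pow], rfl⟩

/-- (F1) in `rootPairs` form. -/
theorem trace_det_mem_rootPairs [IsAlgClosed F] (g : GL (Fin 2) F) {m : ℕ} (hg : g ^ m = 1) :
    ((g : Matrix (Fin 2) (Fin 2) F).trace, (g : Matrix (Fin 2) (Fin 2) F).det) ∈ rootPairs F m := by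
  obtain ⟨z, z', hz, hz', h1, h2⟩ := exists_roots_of_matrix_pow_eq_one (val_pow_eq_one hg)
  exact ⟨z, z', hz, hz', by rw [h1, h2]⟩

end F1

/-! ### (F3) -/

section F3

variable {R : Type*} [CommRing R]

/-- **(F3)**, matrix form. -/
theorem trace_mul_self_fin_two (M : Matrix (Fin 2) (Fin 2) R) :
    (M * M).trace = M.trace ^ 2 - 2 * M.det := by
  simp only [Matrix.trace_fin_two, Matrix.det_fin_two, Matrix.mul_apply, Fin.sum_univ_two]
  ring

/-- **(F3)** -/
theorem trace_mul_self (g : GL (Fin 2) R) :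
    ((g * g : GL (Fin 2) R) : Matrix (Fin 2) (Fin 2) R).trace
      = (g : Matrix (Fin 2) (Fin 2) R).trace ^ 2 - 2 * (g : Matrix (Fin 2) (Fin 2) R).det := by
  rw [Units.val_mul, trace_mul_self_fin_two]

end F3

/-! ### (F2) -/

section F2

theorem eq_one_of_norm_eq_one_of_add_eq_two {l k : ℂ} (hl : ‖l‖ = 1) (hk : ‖k‖ = 1)
    (h : l + k = 2) : l = 1 ∧ k = 1 := by
  have h1 : l.re ≤ 1 := hl ▸ Complex.re_le_norm l
  have h2 : k.re ≤ 1 := hk ▸ Complex.re_le_norm k
  have h3 : l.re + k.re = 2 := by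
    have := congrArg Complex.re h
    simpa using this
  have h4 : l.im + k.im = 0 := by
    have := congrArg Complex.im h
    simpa using this
  have hlre : l.re = 1 := by linarith
  have hkre : k.re = 1 := by linarith
  have hsq : ∀ z : ℂ, ‖z‖ = 1 → z.re = 1 → z.im = 0 := by
    intro z hz hzre
    have h5 : z.re * z.re + z.im * z.im = 1 := by
      rw [← Complex.normSq_apply, ← Complex.sq_norm, hz]; norm_num
    rw [hzre] at h5
    have : z.im * z.im = 0 := by linarith
    exact mul_self_eq_zero.mp this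
  exact ⟨Complex.ext (by simpa using hlre) (by simpa using hsq l hl hlre),
    Complex.ext (by simpa using hkre) (by simpa using hsq k hk hkre)⟩

/-- (F2), matrix form. -/
theorem matrix_eq_one_of_pow_eq_one_of_trace_eq_two {M : Matrix (Fin 2) (Fin 2) ℂ} {m : ℕ}
    (hm : 0 < m) (hM : M ^ m = 1) (ht : M.trace = 2) : M = 1 := by
  obtain ⟨l, k, h1, h2, h3, h4⟩ := Lift.exists_eigenvalues M
  have hl := Lift.pow_eq_one_of_det_sub_eq_zero hM h3
  have hk := Lift.pow_eq_one_of_det_sub_eq_zero hM h4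
  obtain ⟨rfl, rfl⟩ := eq_one_of_norm_eq_one_of_add_eq_two
    (Complex.norm_eq_one_of_pow_eq_one hl hm.ne') (Complex.norm_eq_one_of_pow_eq_one hk hm.ne')
    (h1.trans ht)
  have := Lift.eq_smul_one_of_double_eigenvalue hm hM (l := 1) h1 h2 (one_pow m)
  rw [this, one_smul]

/-- **(F2)** An element of finite order of `GL₂(ℂ)` with trace `2` is the identity. -/
theorem eq_one_of_pow_eq_one_of_trace_eq_two (g : GL (Fin 2) ℂ) {m : ℕ} (hm : 0 < m)
    (hg : g ^ m = 1) (ht : (g : Matrix (Fin 2) (Fin 2) ℂ).trace = 2) : g = 1 :=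
  Units.ext (matrix_eq_one_of_pow_eq_one_of_trace_eq_two hm (val_pow_eq_one hg) ht)

/-- (F2) over any field which embeds into `ℂ`, matrix form. -/
theorem matrix_eq_one_of_pow_eq_one_of_trace_eq_two' {K : Type*} [Field K] (ι : K →+* ℂ)
    {M : Matrix (Fin 2) (Fin 2) K} {m : ℕ} (hm : 0 < m) (hM : M ^ m = 1) (ht : M.trace = 2) :
    M = 1 := by
  have h1 : (ι.mapMatrix M) ^ m = 1 := by rw [← map_pow, hM, map_one]
  have h2 : (ι.mapMatrix M).trace = 2 := by
    have h0 : (ι.mapMatrix M).trace = ι M.trace := by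
      simp [Matrix.trace_fin_two]
    rw [h0, ht, map_ofNat]
  have h3 := matrix_eq_one_of_pow_eq_one_of_trace_eq_two hm h1 h2
  have hinj : Function.Injective
      (ι.mapMatrix : Matrix (Fin 2) (Fin 2) K →+* Matrix (Fin 2) (Fin 2) ℂ) := by
    intro A B hAB
    rw [RingHom.mapMatrix_apply, RingHom.mapMatrix_apply] at hAB
    exact Matrix.map_injective ι.injective hAB
  exact hinj (by rw [h3, map_one])

/-- (F2) over any field which embeds into `ℂ`. -/
theorem eq_one_of_pow_eq_one_of_trace_eq_two' {K : Type*} [Field K] (ι : K →+* ℂ)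
    (g : GL (Fin 2) K) {m : ℕ} (hm : 0 < m) (hg : g ^ m = 1)
    (ht : (g : Matrix (Fin 2) (Fin 2) K).trace = 2) : g = 1 :=
  Units.ext (matrix_eq_one_of_pow_eq_one_of_trace_eq_two' ι hm (val_pow_eq_one hg) ht)

end F2

/-! ### (F4) -/

section F4a

universe u

variable {Γ : Type u} [Group Γ] {k : Type u} [Field k]

/-- **(F4), first half**: a reducible two-dimensional matrix representation has a common
eigenvector. -/
theorem exists_eigenvector_of_not_isIrreducible (ρ : Γ →* GL (Fin 2) k)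
    (h : ¬ (Deformation.matrixRepresentation ρ).IsIrreducible) :
    ∃ v : Fin 2 → k, v ≠ 0 ∧ ∀ γ, ∃ c : k, (ρ γ).1.mulVec v = c • v := by
  have hnt : (⊥ : Subrepresentation (Deformation.matrixRepresentation ρ)) ≠ ⊤ := by
    intro hbt
    have h1 : (⊥ : Subrepresentation (Deformation.matrixRepresentation ρ)).toSubmodule
        = (⊤ : Subrepresentation (Deformation.matrixRepresentation ρ)).toSubmodule := by
      rw [hbt]
    exact bot_ne_top (α := Submodule k (Fin 2 → k)) h1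
  have hW : ∃ W : Subrepresentation (Deformation.matrixRepresentation ρ), W ≠ ⊥ ∧ W ≠ ⊤ := by
    by_contra hcon
    push Not at hcon
    exact h { exists_pair_ne := ⟨⊥, ⊤, hnt⟩
              eq_bot_or_eq_top := fun W => or_iff_not_imp_left.mpr (hcon W) }
  obtain ⟨W, hW0, hW1⟩ := hW
  have hv : ∃ v ∈ W.toSubmodule, v ≠ 0 := by
    by_contra hcon
    push Not at hcon
    apply hW0
    apply Subrepresentation.toSubmodule_injective
    exact (Submodule.eq_bot_iff _).mpr hcon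
  obtain ⟨v, hvW, hv⟩ := hv
  refine ⟨v, hv, fun γ => ?_⟩
  by_contra hcon
  push Not at hcon
  apply hW1
  apply Subrepresentation.toSubmodule_injective
  have hw : (ρ γ).1.mulVec v ∈ W.toSubmodule := by
    have := W.apply_mem_toSubmodule γ hvW
    rwa [Deformation.matrixRepresentation_apply] at this
  have hli : LinearIndependent k ![v, (ρ γ).1.mulVec v] :=
    (LinearIndependent.pair_iff' hv).mpr (fun a => (hcon a).symm)
  have hspan := hli.span_eq_top_of_card_eq_finrank' (by simp)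
  change W.toSubmodule = ⊤
  rw [eq_top_iff, ← hspan, Submodule.span_le]
  rintro x ⟨i, rfl⟩
  fin_cases i
  · exact hvW
  · exact hw

end F4a

section F4b

variable {Γ : Type*} [Group Γ] {F : Type*} [Field F]

/-- **(F4), second half**: a two-dimensional matrix representation with a common eigenvector has
trace `χ₁ + χ₂` and determinant `χ₁ χ₂` for two characters, both trivial on the kernel. -/
theorem exists_characters_of_eigenvector (ρ : Γ →* GL (Fin 2) F) {v : Fin 2 → F} (hv : v ≠ 0)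
    (h : ∀ γ, ∃ c : F, (ρ γ).1.mulVec v = c • v) :
    ∃ χ₁ χ₂ : Γ →* Fˣ,
      (∀ γ, (ρ γ).1.trace = (χ₁ γ : F) + (χ₂ γ : F)) ∧
      (∀ γ, (ρ γ).1.det = (χ₁ γ : F) * (χ₂ γ : F)) ∧
      ∀ γ, ρ γ = 1 → χ₁ γ = 1 ∧ χ₂ γ = 1 := by
  choose c hc using h
  have hinj : ∀ a b : F, a • v = b • v → a = b := fun a b hab => smul_left_injective F hv hab
  let c' : Γ →* F :=
    { toFun := c
      map_one' := hinj _ _ (by rw [← hc, map_one, Units.val_one, Matrix.one_mulVec, one_smul])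
      map_mul' := fun a b => hinj _ _ (by
        rw [← hc, map_mul, Units.val_mul, ← Matrix.mulVec_mulVec, hc b, Matrix.mulVec_smul, hc a,
          smul_smul, mul_comm]) }
  let χ₁ : Γ →* Fˣ := c'.toHomUnits
  let χ₂ : Γ →* Fˣ := (Matrix.GeneralLinearGroup.det.comp ρ) / χ₁
  have hχ₁ : ∀ γ, (χ₁ γ : F) = c γ := fun γ => rfl
  have hχ₂ : ∀ γ, (χ₂ γ : F) = (ρ γ).1.det / c γ := fun γ => by
    change ((Matrix.GeneralLinearGroup.det (ρ γ) / χ₁ γ : Fˣ) : F) = _
    rw [Units.val_div_eq_div_val, hχ₁]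
    rfl
  have hc0 : ∀ γ, c γ ≠ 0 := fun γ => by rw [← hχ₁]; exact (χ₁ γ).ne_zero
  have hquad : ∀ γ, c γ ^ 2 - (ρ γ).1.trace * c γ + (ρ γ).1.det = 0 := by
    intro γ
    rw [← Lift.det_sub_smul_one]
    refine Matrix.exists_mulVec_eq_zero_iff.mp ⟨v, hv, ?_⟩
    rw [Matrix.sub_mulVec, Matrix.smul_mulVec, Matrix.one_mulVec, hc, sub_self]
  refine ⟨χ₁, χ₂, fun γ => ?_, fun γ => ?_, fun γ hγ => ?_⟩
  · rw [hχ₁, hχ₂]
    have h0 := hc0 γ
    field_simp
    linear_combination (-1 : F) * hquad γ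
  · rw [hχ₁, hχ₂]
    field_simp [hc0 γ]
  · have h1 : χ₁ γ = 1 := by
      apply Units.ext
      rw [hχ₁, Units.val_one]
      refine hinj _ _ ?_
      rw [← hc, hγ, Units.val_one, Matrix.one_mulVec, one_smul]
    refine ⟨h1, ?_⟩
    apply Units.ext
    rw [hχ₂, Units.val_one, ← hχ₁, h1, hγ]
    simp

end F4b

section F4c

universe u

variable {Γ : Type u} [Group Γ] {k : Type u} [Field k]

/-- **(F4)** A reducible two-dimensional matrix representation has trace `χ₁ + χ₂` and determinant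
`χ₁ χ₂` for two characters `χ₁ χ₂`, both trivial on the kernel of the representation. -/
theorem exists_characters_of_not_isIrreducible (ρ : Γ →* GL (Fin 2) k)
    (h : ¬ (Deformation.matrixRepresentation ρ).IsIrreducible) :
    ∃ χ₁ χ₂ : Γ →* kˣ,
      (∀ γ, (ρ γ).1.trace = (χ₁ γ : k) + (χ₂ γ : k)) ∧
      (∀ γ, (ρ γ).1.det = (χ₁ γ : k) * (χ₂ γ : k)) ∧
      ∀ γ, ρ γ = 1 → χ₁ γ = 1 ∧ χ₂ γ = 1 := by
  obtain ⟨v, hv, hev⟩ := exists_eigenvector_of_not_isIrreducible ρ h
  exact exists_characters_of_eigenvector ρ hv hev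

end F4c

/-! ### (F5) -/

section F5

variable {H : Type*} [Group H] [Fintype H]

theorem norm_character_eq_one (χ : H →* ℂˣ) (h : H) : ‖(χ h : ℂ)‖ = 1 := by
  have h1 : (χ h : ℂ) ^ Fintype.card H = 1 := by
    rw [← Units.val_pow_eq_pow_val, ← map_pow, pow_card_eq_one, map_one, Units.val_one]
  exact Complex.norm_eq_one_of_pow_eq_one h1 Fintype.card_ne_zero

/-- **(F5)** -/
theorem two_mul_card_le_sum_norm_sq (χ₁ χ₂ : H →* ℂˣ) :
    2 * (Fintype.card H : ℝ) ≤ ∑ h : H, ‖(χ₁ h : ℂ) + (χ₂ h : ℂ)‖ ^ 2 := by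
  classical
  let ψ : H →* ℂ := (Units.coeHom ℂ).comp (χ₁ / χ₂)
  have hψ : ∀ h, ψ h = (χ₁ h : ℂ) * (starRingEnd ℂ) (χ₂ h : ℂ) := by
    intro h
    change (((χ₁ h / χ₂ h : ℂˣ)) : ℂ) = _
    rw [Units.val_div_eq_div_val, div_eq_mul_inv, Complex.inv_def,
      Complex.normSq_eq_norm_sq, norm_character_eq_one]
    simp
  have hterm : ∀ h, ‖(χ₁ h : ℂ) + (χ₂ h : ℂ)‖ ^ 2 = 2 + 2 * (ψ h).re := by
    intro h
    rw [Complex.sq_norm, Complex.normSq_add, Complex.normSq_eq_norm_sq, Complex.normSq_eq_norm_sq,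
      norm_character_eq_one, norm_character_eq_one, hψ]
    norm_num
  have hsum : 0 ≤ (∑ h : H, ψ h).re := by
    rw [sum_hom_units]
    split_ifs <;> simp
  calc 2 * (Fintype.card H : ℝ) ≤ 2 * (Fintype.card H : ℝ) + 2 * (∑ h : H, ψ h).re := by linarith
    _ = ∑ h : H, (2 + 2 * (ψ h).re) := by
      rw [Finset.sum_add_distrib, Complex.re_sum, Finset.mul_sum]
      simp [mul_comm]
    _ = ∑ h : H, ‖(χ₁ h : ℂ) + (χ₂ h : ℂ)‖ ^ 2 := by
      refine Finset.sum_congr rfl fun h _ => (hterm h).symm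

/-- (F5) with `Nat.card`. -/
theorem two_mul_natCard_le_sum_norm_sq (χ₁ χ₂ : H →* ℂˣ) :
    2 * (Nat.card H : ℝ) ≤ ∑ h : H, ‖(χ₁ h : ℂ) + (χ₂ h : ℂ)‖ ^ 2 := by
  rw [Nat.card_eq_fintype_card]
  exact two_mul_card_le_sum_norm_sq χ₁ χ₂

end F5

end Fermat.Agent.S48x.Assembly
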