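import Mathlib
import Fermat.Agent.S48x.Assembly.Defs
import Fermat.Agent.S48x.Assembly.FiniteOrder
import Fermat.Agent.S48x.Assembly.Density

/-!
# P-S48 (Deligne–Serre), assembly STEP 5: irreducibility from the Rankin bound (helper19)

A two-dimensional complex Galois representation of finite level whose Frobenius traces `ι (a p)`
satisfy the Rankin bound `∑_{p ∈ P} |ι (a p)|² p^(-s) ≤ log (1/(s-1)) + C` is irreducible: a
reducible one has trace `χ₁ + χ₂`, whose mean square is at least `2`, contradicting the density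
form (D3) of Chebotarev.
-/

set_option autoImplicit false

namespace Fermat.Agent.S48x.Assembly

/-- A homomorphism of finite level has finite range. -/
theorem finite_range_of_finiteLevel {M : Type} [Group M] (ρ : GQ →* M)
    (h : GaloisFactorsThroughFiniteLevel ρ) : Finite ρ.range := by
  obtain ⟨L, hL, hρ⟩ := h
  have := hL
  let res : GQ → (L →ₐ[ℚ] Qb) := fun σ => (σ : Qb →ₐ[ℚ] Qb).comp L.val
  have hres : ∀ σ τ : GQ, res σ = res τ → ρ σ = ρ τ := by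
    intro σ τ hστ
    have h1 : ρ (σ⁻¹ * τ) = 1 := hρ _ (fun x hx => by
      have h2 : σ x = τ x := DFunLike.congr_fun hστ ⟨x, hx⟩
      show σ⁻¹ (τ x) = x
      rw [← h2]
      exact σ.symm_apply_apply x)
    rw [map_mul, map_inv, inv_mul_eq_one] at h1
    exact h1
  have hfin : (Set.range ρ).Finite := by
    have h1 : Set.range ρ ⊆ (fun e => ρ (Function.invFun res e)) '' (Set.range res) := by
      rintro _ ⟨σ, rfl⟩
      refine ⟨res σ, ⟨σ, rfl⟩, ?_⟩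
      exact hres _ _ (Function.invFun_eq ⟨σ, rfl⟩)
    exact ((Set.toFinite (Set.range res)).image _).subset h1
  exact hfin.to_subtype

/-- **STEP 5.** Irreducibility from the Rankin bound and the density form (D3) of Chebotarev. -/
theorem irreducible_of_rankin (hD3 : ChebD3) {N : ℕ} (ι : Qb →+* ℂ) (a : ℕ → Qb) (C : ℝ)
    (hRankin : ∀ s : ℝ, 1 < s → s ≤ 2 → ∀ P : Finset ℕ, (∀ p ∈ P, p.Prime ∧ ¬ p ∣ N) →
      ∑ p ∈ P, ‖ι (a p)‖ ^ 2 * (p : ℝ) ^ (-s) ≤ Real.log (1 / (s - 1)) + C)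
    (ρ : GQ →* GL (Fin 2) ℂ) (hfl : GaloisFactorsThroughFiniteLevel ρ)
    (hfrob : ∀ p : ℕ, p.Prime → ¬ p ∣ N → ∀ A : ValuationSubring Qb, A.LiesOverPrime p →
      ∀ φ : GQ, A.IsFrobeniusAt φ p →
        ((ρ φ : GL (Fin 2) ℂ) : Matrix (Fin 2) (Fin 2) ℂ).trace = ι (a p))
    (hN : N ≠ 0) : (Deformation.matrixRepresentation ρ).IsIrreducible := by
  classical
  by_contra hirr
  obtain ⟨χ₁, χ₂, htr, -, hker⟩ := exists_characters_of_not_isIrreducible ρ hirr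
  have hfinM : Finite ρ.range := finite_range_of_finiteLevel ρ hfl
  have hfintype : Fintype ρ.range := Fintype.ofFinite _
  set r : GQ →* ρ.range := ρ.rangeRestrict with hr
  have hsurj : Function.Surjective r := ρ.rangeRestrict_surjective
  have hlevel : GaloisFactorsThroughFiniteLevel r := by
    obtain ⟨L, hL, h1⟩ := hfl
    exact ⟨L, hL, fun σ hσ => Subtype.ext (h1 σ hσ)⟩
  -- the characters descend to the image
  have hkerle : ∀ χ : GQ →* ℂˣ, (∀ γ, ρ γ = 1 → χ γ = 1) → r.ker ≤ χ.ker := by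
    intro χ hχ γ hγ
    rw [MonoidHom.mem_ker] at hγ ⊢
    apply hχ
    exact congrArg Subtype.val hγ
  let χ₁' : ρ.range →* ℂˣ := r.liftOfRightInverse (Function.surjInv hsurj)
    (Function.rightInverse_surjInv hsurj) ⟨χ₁, hkerle χ₁ (fun γ h => (hker γ h).1)⟩
  let χ₂' : ρ.range →* ℂˣ := r.liftOfRightInverse (Function.surjInv hsurj)
    (Function.rightInverse_surjInv hsurj) ⟨χ₂, hkerle χ₂ (fun γ h => (hker γ h).2)⟩
  have hχ₁' : ∀ σ, χ₁' (r σ) = χ₁ σ := fun σ =>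
    MonoidHom.liftOfRightInverse_comp_apply _ _ _ _ σ
  have hχ₂' : ∀ σ, χ₂' (r σ) = χ₂ σ := fun σ =>
    MonoidHom.liftOfRightInverse_comp_apply _ _ _ _ σ
  -- the class function
  let ψ : ρ.range → ℝ := fun g => ‖(χ₁' g : ℂ) + (χ₂' g : ℂ)‖ ^ 2
  have hψ0 : ∀ g, 0 ≤ ψ g := fun g => sq_nonneg _
  have hconj : ∀ (χ : ρ.range →* ℂˣ) (x y : ρ.range), χ (x * y * x⁻¹) = χ y := by
    intro χ x y
    rw [map_mul, map_mul, map_inv, mul_comm (χ x), mul_assoc, mul_inv_cancel, mul_one]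
  have hψconj : ∀ x y : ρ.range, ψ (x * y * x⁻¹) = ψ y := by
    intro x y
    show ‖(χ₁' (x * y * x⁻¹) : ℂ) + (χ₂' (x * y * x⁻¹) : ℂ)‖ ^ 2 = _
    rw [hconj χ₁', hconj χ₂']
  let w : ℕ → ℝ := fun p => ‖ι (a p)‖ ^ 2
  have hw : ∀ p : ℕ, p.Prime → p ∉ N.primeFactors → ∀ A : ValuationSubring Qb,
      A.LiesOverPrime p → ∀ φ : GQ, A.IsFrobeniusAt φ p → w p = ψ (r φ) := by
    intro p hp hpS A hA φ hφ
    have hpN : ¬ p ∣ N := fun h => hpS (Nat.mem_primeFactors.mpr ⟨hp, h, hN⟩)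
    show ‖ι (a p)‖ ^ 2 = ‖(χ₁' (r φ) : ℂ) + (χ₂' (r φ) : ℂ)‖ ^ 2
    rw [hχ₁', hχ₂', ← htr, hfrob p hp hpN A hA φ hφ]
  obtain ⟨s₀, hs₀, hP⟩ := hD3 ρ.range r hsurj hlevel ψ hψ0 hψconj w N.primeFactors hw (1 / 2)
    (by norm_num)
  -- the mean of `ψ` is at least `2`
  have hcardpos : (0 : ℝ) < Nat.card ρ.range := by exact_mod_cast Nat.card_pos
  have hmean : (2 : ℝ) ≤ (∑ᶠ g, ψ g) / Nat.card ρ.range := by
    rw [le_div_iff₀ hcardpos, finsum_eq_sum_of_fintype]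
    exact two_mul_natCard_le_sum_norm_sq χ₁' χ₂'
  -- choose `s`
  set L₀ : ℝ := max (2 * C + 1) 1 with hL₀
  set δ : ℝ := min (Real.exp (-L₀)) (min (s₀ - 1) 1) / 2 with hδ
  have hexp : 0 < Real.exp (-L₀) := Real.exp_pos _
  have hmin : 0 < min (Real.exp (-L₀)) (min (s₀ - 1) 1) :=
    lt_min hexp (lt_min (by linarith) one_pos)
  have hδ0 : 0 < δ := by rw [hδ]; linarith
  have hδ1 : δ < Real.exp (-L₀) := by
    have := min_le_left (Real.exp (-L₀)) (min (s₀ - 1) 1)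
    rw [hδ]; linarith
  have hδ2 : δ < s₀ - 1 := by
    have h1 := min_le_right (Real.exp (-L₀)) (min (s₀ - 1) 1)
    have h2 := min_le_left (s₀ - 1) (1 : ℝ)
    rw [hδ]; linarith
  have hδ3 : δ < 1 := by
    have h1 := min_le_right (Real.exp (-L₀)) (min (s₀ - 1) 1)
    have h2 := min_le_right (s₀ - 1) (1 : ℝ)
    rw [hδ]; linarith
  set s : ℝ := 1 + δ with hs
  have hs1 : 1 < s := by rw [hs]; linarith
  have hlog : L₀ < Real.log (1 / (s - 1)) := lt_log_inv_sub_one hs1 (by rw [hs]; linarith)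
  obtain ⟨P, hPS, hPle⟩ := hP s hs1 (by rw [hs]; linarith)
  have hPN : ∀ p ∈ P, p.Prime ∧ ¬ p ∣ N := by
    intro p hp
    obtain ⟨hpp, hpS⟩ := hPS p hp
    exact ⟨hpp, fun h => hpS (Nat.mem_primeFactors.mpr ⟨hpp, h, hN⟩)⟩
  have hR := hRankin s hs1 (by rw [hs]; linarith) P hPN
  have hL1 : (1 : ℝ) ≤ L₀ := le_max_right _ _
  have hL2 : 2 * C + 1 ≤ L₀ := le_max_left _ _
  have hlogpos : 0 < Real.log (1 / (s - 1)) := by linarith
  have h32 : (3 / 2 : ℝ) * Real.log (1 / (s - 1)) ≤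
      ((∑ᶠ g, ψ g) / Nat.card ρ.range - 1 / 2) * Real.log (1 / (s - 1)) := by
    apply mul_le_mul_of_nonneg_right _ hlogpos.le
    linarith
  have hfinal : (3 / 2 : ℝ) * Real.log (1 / (s - 1)) ≤ Real.log (1 / (s - 1)) + C :=
    h32.trans (hPle.trans hR)
  linarith

end Fermat.Agent.S48x.Assembly
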