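/-
helper18.  P-S48 (Deligne-Serre), assembly, Step 1: the images of the mod `ℓ` representations have
bounded order (Deligne-Serre (8.4)-(8.6)), from the Rankin bound, the density form of Chebotarev
and the group-theoretic proposition 7.2.
-/
import Mathlib
import Fermat.Agent.Lib.FrobeniusValuation
import Fermat.Agent.S48x.Assembly.Pin
import Fermat.Agent.S48x.Assembly.Density

set_option autoImplicit false
set_option linter.style.haveILetI false

namespace Fermat.Agent.S48x.Assembly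

open Fermat.Agent.Lib

/-- The reduction of an element of `ℚbar` modulo the place `A` over `ℓ` is unique when it exists in
the prime field. -/
theorem red_unique {ℓ : ℕ} (hℓ : ℓ.Prime) (A : ValuationSubring Qb) (hA : A.LiesOverPrime ℓ)
    (y : Qb) {t t' : ZMod ℓ}
    (ht : ∀ n : ℤ, (n : ZMod ℓ) = t → y - n ∈ A.nonunits)
    (ht' : ∀ n : ℤ, (n : ZMod ℓ) = t' → y - n ∈ A.nonunits) : t = t' := by
  obtain ⟨n, hn⟩ := ZMod.intCast_surjective t
  obtain ⟨n', hn'⟩ := ZMod.intCast_surjective t'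
  have h1 := ht n hn
  have h2 := ht' n' hn'
  have h3 : ((n' - n : ℤ) : Qb) ∈ A.nonunits := by
    have := sub_mem_nonunits A h1 h2
    have h4 : y - (n : Qb) - (y - (n' : Qb)) = ((n' - n : ℤ) : Qb) := by push_cast; ring
    rwa [h4] at this
  have h5 : (ℓ : ℤ) ∣ n' - n := by
    by_contra hnd
    exact intCast_not_mem_nonunits A hℓ hA hnd h3
  rw [← hn, ← hn']
  exact ((ZMod.intCast_eq_intCast_iff_dvd_sub n n' ℓ).mpr h5)

/-- A chosen reduction map. -/
noncomputable def redMap {ℓ : ℕ} (A : ValuationSubring Qb) (y : Qb) : ZMod ℓ :=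
  open Classical in
  if h : ∃ t : ZMod ℓ, ∀ n : ℤ, (n : ZMod ℓ) = t → y - n ∈ A.nonunits then h.choose else 0

theorem redMap_eq {ℓ : ℕ} (hℓ : ℓ.Prime) (A : ValuationSubring Qb) (hA : A.LiesOverPrime ℓ)
    (y : Qb) {t : ZMod ℓ} (ht : ∀ n : ℤ, (n : ZMod ℓ) = t → y - n ∈ A.nonunits) :
    redMap (ℓ := ℓ) A y = t := by
  have h : ∃ t : ZMod ℓ, ∀ n : ℤ, (n : ZMod ℓ) = t → y - n ∈ A.nonunits := ⟨t, ht⟩
  unfold redMap
  rw [dif_pos h]
  exact red_unique hℓ A hA y h.choose_spec ht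

/-- **Step 1.** The orders of the images of the mod `ℓ` representations are bounded
independently of `ℓ`. -/
theorem exists_card_bound {N : ℕ} (hN : N ≠ 0) (D : EigenData N) (hR : RankinAll D)
    (hD2 : ChebD2) (hGB : GroupBound) :
    ∃ B₀ : ℕ, ∀ (ℓ : ℕ) (_ : ℓ.Prime) (m : ModLRep D ℓ), Nat.card m.r.range ≤ B₀ := by
  classical
  obtain ⟨Y, hYfin, hX⟩ := exists_finite_exceptional D hR (1 / 24) (by norm_num)
  set X : Set ℕ := {p | p.Prime ∧ ¬ p ∣ N ∧ D.α p ∉ Y} with hXdef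
  set YF : Finset Qb := hYfin.toFinset with hYF
  set EF : Finset Qb := D.ee_fin.toFinset with hEF
  set M₀ : ℕ := YF.card * EF.card with hM₀
  refine ⟨(4 * M₀ + 1) ^ 4, fun ℓ hℓ m => ?_⟩
  haveI : Fact ℓ.Prime := ⟨hℓ⟩
  set G : Subgroup (GL (Fin 2) (ZMod ℓ)) := m.r.range with hGdef
  set r' : GQ →* G := m.r.rangeRestrict with hr'
  have hsurj : Function.Surjective r' := m.r.rangeRestrict_surjective
  have hlevel : GaloisFactorsThroughFiniteLevel r' := by
    obtain ⟨L, hL, h1⟩ := m.finite_level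
    exact ⟨L, hL, fun σ hσ => Subtype.ext (h1 σ hσ)⟩
  -- the bad set
  set B : Set G := {g | ∀ x : G, ∀ p : ℕ, p.Prime → ¬ p ∣ N * ℓ →
    ∀ A' : ValuationSubring Qb, A'.LiesOverPrime p → ∀ φ : GQ, A'.IsFrobeniusAt φ p →
      r' φ = x * g * x⁻¹ → p ∈ X} with hB
  have hBconj : ∀ x y : G, y ∈ B → x * y * x⁻¹ ∈ B := by
    intro x y hy x' p hp hpN A' hA' φ hφ hr
    refine hy (x' * x) p hp hpN A' hA' φ hφ ?_
    rw [hr, mul_inv_rev]
    group
  have hNℓ : N * ℓ ≠ 0 := mul_ne_zero hN hℓ.ne_zero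
  have hBX : ∀ p : ℕ, p.Prime → p ∉ (N * ℓ).primeFactors → ∀ A : ValuationSubring Qb,
      A.LiesOverPrime p → ∀ φ : GQ, A.IsFrobeniusAt φ p → r' φ ∈ B → p ∈ X := by
    intro p hp hpS A' hA' φ hφ hφB
    have hpN : ¬ p ∣ N * ℓ := fun h => hpS (Nat.mem_primeFactors.mpr ⟨hp, h, hNℓ⟩)
    exact hφB 1 p hp hpN A' hA' φ hφ (by simp)
  have hdens := hD2 G r' hsurj hlevel B hBconj X (1 / 24) hX (N * ℓ).primeFactors hBX
  -- the good set
  set H : Finset (GL (Fin 2) (ZMod ℓ)) :=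
    ((Finset.univ : Finset G).filter (· ∉ B)).map (Function.Embedding.subtype _) with hH
  have hHG : ∀ h ∈ H, h ∈ G := by
    intro h hh
    rw [hH, Finset.mem_map] at hh
    obtain ⟨g, _, rfl⟩ := hh
    exact g.2
  have hcardG : Nat.card G = Fintype.card G := Nat.card_eq_fintype_card
  have hcardB : Nat.card B = ((Finset.univ : Finset G).filter (· ∈ B)).card := by
    rw [Nat.card_eq_fintype_card, Fintype.card_subtype]
  have hsplit : ((Finset.univ : Finset G).filter (· ∈ B)).card +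
      ((Finset.univ : Finset G).filter (· ∉ B)).card = Fintype.card G := by
    rw [Finset.card_filter_add_card_filter_not, Finset.card_univ]
  have hHcard : H.card = ((Finset.univ : Finset G).filter (· ∉ B)).card := by
    rw [hH, Finset.card_map]
  have hdens' : 24 * (Nat.card G - H.card) ≤ Nat.card G := by
    have h1 : Nat.card G - H.card = Nat.card B := by
      rw [hcardG, hHcard, hcardB]; omega
    rw [h1]
    have h2 : (Nat.card B : ℝ) ≤ 1 / 24 * Nat.card G := hdens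
    have h3 : ((24 * Nat.card B : ℕ) : ℝ) ≤ (Nat.card G : ℝ) := by
      push_cast; linarith
    exact_mod_cast h3
  -- few characteristic polynomials on the good set
  have hM : (H.image fun h : GL (Fin 2) (ZMod ℓ) =>
      ((h : Matrix (Fin 2) (Fin 2) (ZMod ℓ)).trace,
        (h : Matrix (Fin 2) (Fin 2) (ZMod ℓ)).det)).card ≤ M₀ := by
    have hsub : (H.image fun h : GL (Fin 2) (ZMod ℓ) =>
        ((h : Matrix (Fin 2) (Fin 2) (ZMod ℓ)).trace,
          (h : Matrix (Fin 2) (Fin 2) (ZMod ℓ)).det)) ⊆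
        (YF ×ˢ EF).image fun q : Qb × Qb =>
          (redMap (ℓ := ℓ) m.A q.1, redMap (ℓ := ℓ) m.A q.2) := by
      intro td htd
      rw [Finset.mem_image] at htd
      obtain ⟨h, hh, rfl⟩ := htd
      rw [hH, Finset.mem_map] at hh
      obtain ⟨g, hg, rfl⟩ := hh
      rw [Finset.mem_filter] at hg
      have hgB : g ∉ B := hg.2
      rw [hB, Set.mem_ofPred_eq] at hgB
      push Not at hgB
      obtain ⟨x, p, hp, hpN, A', hA', φ, hφ, hr, hpX⟩ := hgB
      have hpN' : ¬ p ∣ N := fun h => hpN (Dvd.dvd.mul_right h ℓ)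
      have hαY : D.α p ∈ Y := by
        by_contra hcon
        exact hpX ⟨hp, hpN', hcon⟩
      have heE : D.ee p ∈ {x : Qb | ∃ p : ℕ, p.Prime ∧ ¬ p ∣ N ∧ D.ee p = x} :=
        ⟨p, hp, hpN', rfl⟩
      have hval : (m.r φ : GL (Fin 2) (ZMod ℓ)) = (x : GL (Fin 2) (ZMod ℓ)) * g * (x : GL (Fin 2) (ZMod ℓ))⁻¹ := by
        have h0 : ((r' φ : G) : GL (Fin 2) (ZMod ℓ)) = m.r φ := rfl
        have := congrArg (Subtype.val) hr
        rw [← h0]
        simpa using this
      have htr : ((g : GL (Fin 2) (ZMod ℓ)) : Matrix (Fin 2) (Fin 2) (ZMod ℓ)).trace =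
          ((m.r φ : GL (Fin 2) (ZMod ℓ)) : Matrix (Fin 2) (Fin 2) (ZMod ℓ)).trace := by
        rw [hval, Matrix.GeneralLinearGroup.coe_mul, Matrix.GeneralLinearGroup.coe_mul,
          Matrix.trace_mul_cycle, ← Matrix.GeneralLinearGroup.coe_mul,
          ← Matrix.GeneralLinearGroup.coe_mul]
        simp
      have hdet : ((g : GL (Fin 2) (ZMod ℓ)) : Matrix (Fin 2) (Fin 2) (ZMod ℓ)).det =
          ((m.r φ : GL (Fin 2) (ZMod ℓ)) : Matrix (Fin 2) (Fin 2) (ZMod ℓ)).det := by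
        rw [hval, Matrix.GeneralLinearGroup.coe_mul, Matrix.GeneralLinearGroup.coe_mul,
          Matrix.det_mul, Matrix.det_mul, mul_right_comm, ← Matrix.det_mul,
          ← Matrix.GeneralLinearGroup.coe_mul]
        simp
      have hfrob := m.frob p hp hpN A' hA' φ hφ
      rw [Finset.mem_image]
      refine ⟨(D.α p, D.ee p), Finset.mem_product.mpr
        ⟨hYfin.mem_toFinset.mpr hαY, D.ee_fin.mem_toFinset.mpr heE⟩, ?_⟩
      simp only [Function.Embedding.coe_subtype]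
      rw [Prod.mk.injEq]
      constructor
      · rw [htr]
        exact redMap_eq hℓ m.A m.hA _ fun n hn => (hfrob n).1 hn
      · rw [hdet]
        exact redMap_eq hℓ m.A m.hA _ fun n hn => (hfrob n).2 hn
    calc _ ≤ ((YF ×ˢ EF).image fun q : Qb × Qb =>
          (redMap (ℓ := ℓ) m.A q.1, redMap (ℓ := ℓ) m.A q.2)).card := Finset.card_le_card hsub
      _ ≤ (YF ×ˢ EF).card := Finset.card_image_le
      _ = M₀ := Finset.card_product _ _
  -- weak semisimplicity of the image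
  have hss : ∀ v : Fin 2 → ZMod ℓ, v ≠ 0 →
      (∀ g ∈ G, ∃ c : ZMod ℓ, (g : Matrix (Fin 2) (Fin 2) (ZMod ℓ)).mulVec v = c • v) →
      ∃ w : Fin 2 → ZMod ℓ, (∀ c : ZMod ℓ, w ≠ c • v) ∧
        ∀ g ∈ G, ∃ c : ZMod ℓ, (g : Matrix (Fin 2) (Fin 2) (ZMod ℓ)).mulVec w = c • w := by
    intro v hv hcommon
    obtain ⟨w, hw1, hw2⟩ := m.weakSS v hv fun σ => hcommon (m.r σ) ⟨σ, rfl⟩
    refine ⟨w, hw1, ?_⟩
    rintro g ⟨σ, rfl⟩
    exact hw2 σ
  exact hGB ℓ G hss H hHG 24 M₀ le_rfl hdens' hM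

end Fermat.Agent.S48x.Assembly
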