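/-
helper18.  P-S48 (Deligne-Serre), assembly, Steps 2 and 3: lifting the mod `ℓ` representations
with bounded image to characteristic zero, and pinning the traces and determinants of Frobenius.
-/
import Mathlib
import Fermat.Agent.Lib.FrobeniusExists
import Fermat.Agent.S48x.Lift.Place
import Fermat.Agent.S48x.Assembly.Bounded

set_option autoImplicit false
set_option linter.style.haveILetI false

namespace Fermat.Agent.S48x.Assembly

open Fermat.Agent.Lib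

/-- The lifting input, from the landed lifting lemma. -/
theorem liftInput : LiftInput := by
  intro ℓ _ A hA G _ _ hG r
  obtain ⟨ρ, hρ⟩ := Lift.exists_lift ℓ A hA hG r
  exact ⟨ρ, fun g n => (hρ g).2.2 n⟩

theorem not_dvd_mul_of_lt {p N ℓ : ℕ} (hp : p.Prime) (hℓ : ℓ.Prime) (hpN : ¬ p ∣ N)
    (hpℓ : p ≠ ℓ) : ¬ p ∣ N * ℓ := by
  intro h
  rcases (Nat.Prime.dvd_mul hp).mp h with h | h
  · exact hpN h
  · exact hpℓ ((Nat.prime_dvd_prime_iff_eq hp hℓ).mp h)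

/-- **Step 2.** Characteristic zero lifts of exponent `m`, for infinitely many `ℓ`. -/
theorem exists_qbRep {N : ℕ} (hN : N ≠ 0) (D : EigenData N) (hR : RankinAll D) (hD2 : ChebD2)
    (hGB : GroupBound) (hL : LiftInput) (hC : HasModLReps D) :
    ∃ m : ℕ, 0 < m ∧ ∀ B : ℕ, ∃ ℓ : ℕ, B < ℓ ∧ ℓ.Prime ∧ Nonempty (QbRep D ℓ m) := by
  obtain ⟨B₀, hB₀⟩ := exists_card_bound hN D hR hD2 hGB
  refine ⟨B₀.factorial, Nat.factorial_pos _, fun B => ?_⟩
  obtain ⟨ℓ, hBℓ, hℓ, ⟨M⟩⟩ := hC (max B B₀)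
  refine ⟨ℓ, lt_of_le_of_lt (le_max_left _ _) hBℓ, hℓ, ?_⟩
  haveI : Fact ℓ.Prime := ⟨hℓ⟩
  set G : Subgroup (GL (Fin 2) (ZMod ℓ)) := M.r.range with hG
  have hcard : Nat.card G ≤ B₀ := hB₀ ℓ hℓ M
  have hcardpos : 0 < Nat.card G := Nat.card_pos
  have hnd : ¬ ℓ ∣ Nat.card G := by
    intro h
    have := Nat.le_of_dvd hcardpos h
    have := le_max_right B B₀
    omega
  obtain ⟨ρG, hρG⟩ := hL ℓ M.A M.hA G hnd G.subtype
  have hdvd : Nat.card G ∣ B₀.factorial := Nat.dvd_factorial hcardpos hcard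
  refine ⟨{
    A := M.A
    hA := M.hA
    ρ := ρG.comp M.r.rangeRestrict
    finite_level := ?_
    pow_eq_one := ?_
    unram := ?_
    frob := ?_ }⟩
  · obtain ⟨L, hL', h1⟩ := M.finite_level
    refine ⟨L, hL', fun σ hσ => ?_⟩
    have h2 : M.r.rangeRestrict σ = 1 := Subtype.ext (h1 σ hσ)
    rw [MonoidHom.comp_apply, h2, map_one]
  · intro σ
    rw [MonoidHom.comp_apply, ← map_pow]
    obtain ⟨c, hc⟩ := hdvd
    rw [hc, pow_mul, pow_card_eq_one', one_pow, map_one]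
  · intro p hp hpN A' hA' σ hσ
    have h2 : M.r.rangeRestrict σ = 1 := Subtype.ext (M.unram p hp hpN A' hA' σ hσ)
    rw [MonoidHom.comp_apply, h2, map_one]
  · intro p hp hpN A' hA' σ hσ
    have hfrob := M.frob p hp hpN A' hA' σ hσ
    have hsub : (G.subtype (M.r.rangeRestrict σ) : GL (Fin 2) (ZMod ℓ)) = M.r σ := rfl
    obtain ⟨n, hn⟩ := ZMod.intCast_surjective
      ((M.r σ : GL (Fin 2) (ZMod ℓ)) : Matrix (Fin 2) (Fin 2) (ZMod ℓ)).trace
    obtain ⟨n', hn'⟩ := ZMod.intCast_surjective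
      ((M.r σ : GL (Fin 2) (ZMod ℓ)) : Matrix (Fin 2) (Fin 2) (ZMod ℓ)).det
    have h1 := (hρG (M.r.rangeRestrict σ) n).1 (by rw [hsub]; exact hn)
    have h2 := (hρG (M.r.rangeRestrict σ) n').2 (by rw [hsub]; exact hn')
    have h3 := (hfrob n).1 hn
    have h4 := (hfrob n').2 hn'
    constructor
    · have := sub_mem_nonunits M.A h3 h1
      rw [MonoidHom.comp_apply]
      convert this using 1
      ring
    · have := sub_mem_nonunits M.A h4 h2
      rw [MonoidHom.comp_apply]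
      convert this using 1
      ring

theorem matrix_pow_eq_one {Ω : Type*} [Field Ω] {g : GL (Fin 2) Ω} {m : ℕ} (h : g ^ m = 1) :
    (g : Matrix (Fin 2) (Fin 2) Ω) ^ m = 1 := by
  have := congrArg (fun u : GL (Fin 2) Ω => (u : Matrix (Fin 2) (Fin 2) Ω)) h
  simpa using this

/-- **Step 3.** Representations with the exact traces and determinants of Frobenius outside
`N ℓ`, for infinitely many `ℓ`. -/
theorem exists_exactRep {N : ℕ} (hN : N ≠ 0) (D : EigenData N) (hR : RankinAll D) (hD2 : ChebD2)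
    (hGB : GroupBound) (hL : LiftInput) (hC : HasModLReps D) :
    ∃ m : ℕ, 0 < m ∧ ∀ B : ℕ, ∃ ℓ : ℕ, B < ℓ ∧ ℓ.Prime ∧ Nonempty (ExactRep D ℓ m) := by
  obtain ⟨m, hm, hQ⟩ := exists_qbRep hN D hR hD2 hGB hL hC
  refine ⟨m, hm, ?_⟩
  -- every eigenvalue is a sum of two roots of unity
  have hmem : ∀ p : ℕ, p.Prime → ¬ p ∣ N →
      D.α p ∈ rootSums Qb m ∧ D.ee p ∈ rootProds Qb m := by
    intro p hp hpN
    obtain ⟨A', φ, hA', hφ⟩ := exists_isFrobeniusAt p hp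
    have key : ∀ B : ℕ, ∃ ℓ : ℕ, ℓ.Prime ∧ B < ℓ ∧ ∃ A : ValuationSubring Qb,
        A.LiesOverPrime ℓ ∧
        (∃ t ∈ rootSums Qb m, D.α p - t ∈ A.nonunits) ∧
        (∃ t ∈ rootProds Qb m, D.ee p - t ∈ A.nonunits) := by
      intro B
      obtain ⟨ℓ, hBℓ, hℓ, ⟨Q⟩⟩ := hQ (max B p)
      have hpℓ : p ≠ ℓ := by
        have := le_max_right B p
        omega
      have hpNℓ := not_dvd_mul_of_lt hp hℓ hpN hpℓ
      have hmat := trace_det_mem_of_pow_eq_one (matrix_pow_eq_one (Q.pow_eq_one φ))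
      have hf := Q.frob p hp hpNℓ A' hA' φ hφ
      exact ⟨ℓ, hℓ, lt_of_le_of_lt (le_max_left _ _) hBℓ, Q.A, Q.hA,
        ⟨_, hmat.1, hf.1⟩, ⟨_, hmat.2, hf.2⟩⟩
    constructor
    · refine mem_of_frequently_congr (rootSums Qb m) (rootSums_finite hm)
        (fun x hx => isIntegral_of_mem_rootSums hm hx) (D.α_int p hp hpN) fun B => ?_
      obtain ⟨ℓ, hℓ, hBℓ, A, hA, h1, _⟩ := key B
      exact ⟨ℓ, hℓ, hBℓ, A, hA, h1⟩
    · refine mem_of_frequently_congr (rootProds Qb m) (rootProds_finite hm)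
        (fun x hx => isIntegral_of_mem_rootProds hm hx) (D.ee_int p hp hpN) fun B => ?_
      obtain ⟨ℓ, hℓ, hBℓ, A, hA, _, h2⟩ := key B
      exact ⟨ℓ, hℓ, hBℓ, A, hA, h2⟩
  -- separation
  obtain ⟨B₁, hsep⟩ := exists_bound_sep (rootSums Qb m ∪ rootProds Qb m)
    ((rootSums_finite hm).union (rootProds_finite hm)) (by
      rintro x (hx | hx)
      · exact isIntegral_of_mem_rootSums hm hx
      · exact isIntegral_of_mem_rootProds hm hx)
  intro B
  obtain ⟨ℓ, hBℓ, hℓ, ⟨Q⟩⟩ := hQ (max B B₁)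
  refine ⟨ℓ, lt_of_le_of_lt (le_max_left _ _) hBℓ, hℓ, ⟨{
    ρ := Q.ρ
    finite_level := Q.finite_level
    pow_eq_one := Q.pow_eq_one
    unram := Q.unram
    frob := ?_ }⟩⟩
  intro p hp hpNℓ A' hA' σ hσ
  have hpN : ¬ p ∣ N := fun h => hpNℓ (Dvd.dvd.mul_right h ℓ)
  have hmat := trace_det_mem_of_pow_eq_one (matrix_pow_eq_one (Q.pow_eq_one σ))
  have hf := Q.frob p hp hpNℓ A' hA' σ hσ
  have hB₁ℓ : B₁ < ℓ := lt_of_le_of_lt (le_max_right _ _) hBℓ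
  exact ⟨(hsep ℓ hℓ hB₁ℓ Q.A Q.hA _ (Or.inl (hmem p hp hpN).1) _ (Or.inl hmat.1) hf.1).symm,
    (hsep ℓ hℓ hB₁ℓ Q.A Q.hA _ (Or.inr (hmem p hp hpN).2) _ (Or.inr hmat.2) hf.2).symm⟩

end Fermat.Agent.S48x.Assembly
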