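/-
helper18.  P-S48 (Deligne-Serre), assembly, Step 4 in the form with general bad sets (adapted from
helper78's `TwoPrimes.lean`): two characteristic zero representations with the same exact Frobenius
data outside the primes dividing `b₁`, resp. `b₂`; then the first one is unramified with the exact
Frobenius data at every prime which does not divide both `b₁` and `b₂`.
-/
import Mathlib
import Fermat.Agent.S48x.Assembly.Pin
import Fermat.Agent.S48x.Extract.Galois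

set_option autoImplicit false

namespace Fermat.Agent.S48x.Assembly

/-- Two exact representations attached to the same data have the same traces and determinants. -/
theorem trace_det_eq_of_exactRepAt {α ee : ℕ → Qb} {b₁ b₂ m₁ m₂ : ℕ} (hb₁ : b₁ ≠ 0) (hb₂ : b₂ ≠ 0)
    (R₁ : ExactRepAt α ee b₁ m₁) (R₂ : ExactRepAt α ee b₂ m₂) (σ : GQ) :
    ((R₁.ρ σ : GL (Fin 2) Qb) : Matrix (Fin 2) (Fin 2) Qb).trace =
        ((R₂.ρ σ : GL (Fin 2) Qb) : Matrix (Fin 2) (Fin 2) Qb).trace ∧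
      ((R₁.ρ σ : GL (Fin 2) Qb) : Matrix (Fin 2) (Fin 2) Qb).det =
        ((R₂.ρ σ : GL (Fin 2) Qb) : Matrix (Fin 2) (Fin 2) Qb).det := by
  obtain ⟨q, hq, hqS, A, hA, φ, hφ, e₁, e₂⟩ :=
    Fermat.Agent.S48x.Extract.exists_frobenius_eq₂ R₁.ρ R₁.finite_level R₂.ρ R₂.finite_level σ
      (b₁ * b₂).primeFactors
  have hne : b₁ * b₂ ≠ 0 := mul_ne_zero hb₁ hb₂
  have hq' : ¬ q ∣ b₁ * b₂ := fun hd => hqS (Nat.mem_primeFactors.mpr ⟨hq, hd, hne⟩)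
  have hq₁ : ¬ q ∣ b₁ := fun hd => hq' (Dvd.dvd.mul_right hd b₂)
  have hq₂ : ¬ q ∣ b₂ := fun hd => hq' (Dvd.dvd.mul_left hd b₁)
  have f₁ := R₁.frob q hq hq₁ A hA φ hφ
  have f₂ := R₂.frob q hq hq₂ A hA φ hφ
  rw [← e₁, ← e₂]
  exact ⟨f₁.1.trans f₂.1.symm, f₁.2.trans f₂.2.symm⟩

/-- **The two primes trick**, general bad sets. -/
theorem unram_frob_of_two {α ee : ℕ → Qb} {b₁ b₂ m₁ m₂ : ℕ} (hb₁ : b₁ ≠ 0) (hb₂ : b₂ ≠ 0)
    (hm₁ : 0 < m₁) (R₁ : ExactRepAt α ee b₁ m₁) (R₂ : ExactRepAt α ee b₂ m₂) :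
    ∀ p : ℕ, p.Prime → (¬ p ∣ b₁ ∨ ¬ p ∣ b₂) → ∀ A : ValuationSubring Qb, A.LiesOverPrime p →
      (∀ σ ∈ A.inertiaSubgroupIn ℚ, R₁.ρ σ = 1) ∧
      ∀ σ : GQ, A.IsFrobeniusAt σ p →
        ((R₁.ρ σ : GL (Fin 2) Qb) : Matrix (Fin 2) (Fin 2) Qb).trace = α p ∧
        ((R₁.ρ σ : GL (Fin 2) Qb) : Matrix (Fin 2) (Fin 2) Qb).det = ee p := by
  intro p hp hpb A hA
  by_cases hp₁ : ¬ p ∣ b₁
  · exact ⟨R₁.unram p hp hp₁ A hA, R₁.frob p hp hp₁ A hA⟩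
  · have hp₂ : ¬ p ∣ b₂ := hpb.resolve_left hp₁
    refine ⟨fun σ hσ => ?_, fun σ hσ => ?_⟩
    · have e := trace_det_eq_of_exactRepAt hb₁ hb₂ R₁ R₂ σ
      have h1 : R₂.ρ σ = 1 := R₂.unram p hp hp₂ A hA σ hσ
      rw [h1] at e
      have ht : ((R₁.ρ σ : GL (Fin 2) Qb) : Matrix (Fin 2) (Fin 2) Qb).trace = 2 := by
        rw [e.1]
        simp
      have hd : ((R₁.ρ σ : GL (Fin 2) Qb) : Matrix (Fin 2) (Fin 2) Qb).det = 1 := by
        rw [e.2]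
        simp
      have hpow : ((R₁.ρ σ : GL (Fin 2) Qb) : Matrix (Fin 2) (Fin 2) Qb) ^ m₁ = 1 := by
        have := congrArg (fun g : GL (Fin 2) Qb => (g : Matrix (Fin 2) (Fin 2) Qb))
          (R₁.pow_eq_one σ)
        simpa using this
      exact Units.ext (eq_one_of_pow_eq_one_of_trace hm₁ hpow ht hd)
    · have e := trace_det_eq_of_exactRepAt hb₁ hb₂ R₁ R₂ σ
      have f := R₂.frob p hp hp₂ A hA σ hσ
      exact ⟨e.1.trans f.1, e.2.trans f.2⟩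

end Fermat.Agent.S48x.Assembly
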