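/-
helper18.  P-S48 (Deligne-Serre), the assembly DS4/DS5: from the arithmetic inputs
(A) integrality and number field, (B) the Rankin bound for all conjugates (both from DS0),
(C) the residual representations (the contract `DS2.ResidualRepsExist`), the conclusion of the
frozen statement S48.
-/
import Mathlib
import Fermat.Agent.S48x.Assembly.Lifted
import Fermat.Agent.S48x.Assembly.TwoAt
import Fermat.Agent.S48x.Assembly.Irred
import Fermat.Agent.S48x.Assembly.ChebInputs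
import Fermat.Agent.S48x.Assembly.DegreeOne
import Fermat.Agent.S48x.Assembly.GlueAB
import Fermat.Agent.S48x.Group.Export

set_option autoImplicit false
set_option linter.style.haveILetI false

namespace Fermat.Agent.S48x.Assembly

theorem trace_map_GL {R S : Type*} [CommRing R] [CommRing S] (f : R →+* S) (g : GL (Fin 2) R) :
    ((Matrix.GeneralLinearGroup.map f g : GL (Fin 2) S) : Matrix (Fin 2) (Fin 2) S).trace =
      f ((g : Matrix (Fin 2) (Fin 2) R).trace) := by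
  simp [Matrix.trace_fin_two]

theorem det_map_GL {R S : Type*} [CommRing R] [CommRing S] (f : R →+* S) (g : GL (Fin 2) R) :
    ((Matrix.GeneralLinearGroup.map f g : GL (Fin 2) S) : Matrix (Fin 2) (Fin 2) S).det =
      f ((g : Matrix (Fin 2) (Fin 2) R).det) := by
  simp [Matrix.det_fin_two]

/-- **The core of the assembly**, in `ℚbar`-language, from the two families of mod `ℓ`
representations (good outside `2 N ℓ`, resp. `3 N ℓ`). -/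
theorem exists_rep_of_families {N : ℕ} (hN : N ≠ 0) (D : EigenData N) (hR : RankinAll D)
    (hC₂ : HasModLReps (D.restrict 2)) (hC₃ : HasModLReps (D.restrict 3)) (ι : Qb →+* ℂ) :
    ∃ ρ : GQ →* GL (Fin 2) ℂ, GaloisFactorsThroughFiniteLevel ρ ∧
      (Deformation.matrixRepresentation ρ).IsIrreducible ∧
      ∀ p : ℕ, p.Prime → ¬ p ∣ N → ∀ A : ValuationSubring Qb, A.LiesOverPrime p →
        (∀ σ ∈ A.inertiaSubgroupIn ℚ, ρ σ = 1) ∧
        ∀ σ : GQ, A.IsFrobeniusAt σ p →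
          ((ρ σ : GL (Fin 2) ℂ) : Matrix (Fin 2) (Fin 2) ℂ).trace = ι (D.α p) ∧
          ((ρ σ : GL (Fin 2) ℂ) : Matrix (Fin 2) (Fin 2) ℂ).det = ι (D.ee p) := by
  have h2N : 2 * N ≠ 0 := mul_ne_zero two_ne_zero hN
  have h3N : 3 * N ≠ 0 := mul_ne_zero three_ne_zero hN
  obtain ⟨m₂, hm₂, hE₂⟩ := exists_exactRep h2N (D.restrict 2) (hR.restrict 2)
    ChebInputs.chebD2 Group.groupBound liftInput hC₂
  obtain ⟨m₃, _, hE₃⟩ := exists_exactRep h3N (D.restrict 3) (hR.restrict 3)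
    ChebInputs.chebD2 Group.groupBound liftInput hC₃
  obtain ⟨ℓ₁, hℓ₁gt, hℓ₁, ⟨R₁⟩⟩ := hE₂ 3
  obtain ⟨ℓ₂, hℓ₂gt, hℓ₂, ⟨R₂⟩⟩ := hE₃ ℓ₁
  have hb₁ : 2 * N * ℓ₁ ≠ 0 := mul_ne_zero h2N hℓ₁.ne_zero
  have hb₂ : 3 * N * ℓ₂ ≠ 0 := mul_ne_zero h3N hℓ₂.ne_zero
  have S₁ : ExactRepAt D.α D.ee (2 * N * ℓ₁) m₂ := R₁.toAt
  have S₂ : ExactRepAt D.α D.ee (3 * N * ℓ₂) m₃ := R₂.toAt
  have hgood := unram_frob_of_two hb₁ hb₂ hm₂ S₁ S₂
  -- a prime not dividing `N` is good for one of the two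
  have hor : ∀ p : ℕ, p.Prime → ¬ p ∣ N → (¬ p ∣ 2 * N * ℓ₁ ∨ ¬ p ∣ 3 * N * ℓ₂) := by
    intro p hp hpN
    by_contra hcon
    push Not at hcon
    obtain ⟨h1, h2⟩ := hcon
    have h1' : p = 2 ∨ p = ℓ₁ := by
      rcases (Nat.Prime.dvd_mul hp).mp h1 with h | h
      · rcases (Nat.Prime.dvd_mul hp).mp h with h | h
        · exact Or.inl ((Nat.prime_dvd_prime_iff_eq hp Nat.prime_two).mp h)
        · exact absurd h hpN
      · exact Or.inr ((Nat.prime_dvd_prime_iff_eq hp hℓ₁).mp h)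
    have h2' : p = 3 ∨ p = ℓ₂ := by
      rcases (Nat.Prime.dvd_mul hp).mp h2 with h | h
      · rcases (Nat.Prime.dvd_mul hp).mp h with h | h
        · exact Or.inl ((Nat.prime_dvd_prime_iff_eq hp Nat.prime_three).mp h)
        · exact absurd h hpN
      · exact Or.inr ((Nat.prime_dvd_prime_iff_eq hp hℓ₂).mp h)
    rcases h1' with h1' | h1' <;> rcases h2' with h2' | h2' <;> omega
  -- the complex representation
  set ρ : GQ →* GL (Fin 2) ℂ := (Matrix.GeneralLinearGroup.map ι).comp S₁.ρ with hρ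
  have hfl : GaloisFactorsThroughFiniteLevel ρ := by
    obtain ⟨L, hL, h1⟩ := S₁.finite_level
    exact ⟨L, hL, fun σ hσ => by rw [hρ, MonoidHom.comp_apply, h1 σ hσ, map_one]⟩
  have hmain : ∀ p : ℕ, p.Prime → ¬ p ∣ N → ∀ A : ValuationSubring Qb, A.LiesOverPrime p →
      (∀ σ ∈ A.inertiaSubgroupIn ℚ, ρ σ = 1) ∧
      ∀ σ : GQ, A.IsFrobeniusAt σ p →
        ((ρ σ : GL (Fin 2) ℂ) : Matrix (Fin 2) (Fin 2) ℂ).trace = ι (D.α p) ∧
        ((ρ σ : GL (Fin 2) ℂ) : Matrix (Fin 2) (Fin 2) ℂ).det = ι (D.ee p) := by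
    intro p hp hpN A hA
    obtain ⟨hun, hfr⟩ := hgood p hp (hor p hp hpN) A hA
    refine ⟨fun σ hσ => by rw [hρ, MonoidHom.comp_apply, hun σ hσ, map_one], fun σ hσ => ?_⟩
    obtain ⟨ht, hd⟩ := hfr σ hσ
    rw [hρ, MonoidHom.comp_apply, trace_map_GL, det_map_GL, ht, hd]
    exact ⟨rfl, rfl⟩
  obtain ⟨C, hC⟩ := hR ι
  exact ⟨ρ, hfl, irreducible_of_rankin ChebInputs.chebD3 ι D.α C hC ρ hfl
    (fun p hp hpN A hA φ hφ => ((hmain p hp hpN A hA).2 φ hφ).1) hN, hmain⟩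

/-- **P-S48, DS4/DS5.**  The conclusion of the frozen statement S48 from the DS0 outputs and the
DS2 contract. -/
theorem s48_of_inputs {N : ℕ} [NeZero N] (ε : DirichletCharacter ℂ N) (a : ℕ → ℂ)
    (hint : ∀ p : ℕ, p.Prime → ¬ p ∣ N → IsIntegral ℤ (a p))
    (hK : ∃ K : IntermediateField ℚ ℂ, FiniteDimensional ℚ K ∧ (∀ z ∈ K, IsAlgebraic ℚ z) ∧
      (∀ p : ℕ, p.Prime → ¬ p ∣ N → a p ∈ K) ∧ (∀ x : ZMod N, ε x ∈ K) ∧
      ∀ (τ : K →+* ℂ) (b : ℕ → ℂ),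
        (∀ p : ℕ, p.Prime → ¬ p ∣ N → ∃ x : K, (x : ℂ) = a p ∧ τ x = b p) →
        ∃ C : ℝ, ∀ s : ℝ, 1 < s → s ≤ 2 → ∀ P : Finset ℕ, (∀ p ∈ P, p.Prime ∧ ¬ p ∣ N) →
          ∑ p ∈ P, ‖b p‖ ^ 2 * (p : ℝ) ^ (-s) ≤ Real.log (1 / (s - 1)) + C)
    (hC : DS2.ResidualRepsExist N ε a) :
    ∃ ρ : GQ →* GL (Fin 2) ℂ, GaloisFactorsThroughFiniteLevel ρ ∧
      (Deformation.matrixRepresentation ρ).IsIrreducible ∧
      ∀ p : ℕ, p.Prime → ¬ p ∣ N →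
        ∀ A : ValuationSubring (AlgebraicClosure ℚ), A.LiesOverPrime p →
          (∀ σ ∈ A.inertiaSubgroupIn ℚ, ρ σ = 1) ∧
          ∀ σ : GQ, A.IsFrobeniusAt σ p →
            ((ρ σ : GL (Fin 2) ℂ) : Matrix (Fin 2) (Fin 2) ℂ).trace = a p ∧
            ((ρ σ : GL (Fin 2) ℂ) : Matrix (Fin 2) (Fin 2) ℂ).det = ε (p : ZMod N) := by
  have hN : N ≠ 0 := NeZero.ne N
  obtain ⟨D, hα, hee, hR⟩ := exists_eigenData ε a hint hK
  haveI := D.K_fin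
  have hdeg : ∀ B : ℕ, ∃ ℓ : ℕ, B < ℓ ∧ ℓ.Prime ∧ ∃ A : ValuationSubring Qb,
      A.LiesOverPrime ℓ ∧ ∀ x ∈ D.K, IsIntegral ℤ x → ∃ n : ℤ, x - n ∈ A.nonunits :=
    fun B => exists_prime_degree_one_gt D.K B
  obtain ⟨Bad, hBad⟩ := hC
  have hC₂ : HasModLReps (D.restrict 2) :=
    hasModLReps_of_family hN two_ne_zero ε a (iotaC : Qb →+* ℂ) D hα hee hdeg
      ⟨Bad, fun ℓ hℓ hℓB k _ _ φ => (hBad ℓ hℓ hℓB k φ).1⟩
  have hC₃ : HasModLReps (D.restrict 3) :=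
    hasModLReps_of_family hN three_ne_zero ε a (iotaC : Qb →+* ℂ) D hα hee hdeg
      ⟨Bad, fun ℓ hℓ hℓB k _ _ φ => (hBad ℓ hℓ hℓB k φ).2⟩
  obtain ⟨ρ, hfl, hirr, hmain⟩ := exists_rep_of_families hN D hR hC₂ hC₃ (iotaC : Qb →+* ℂ)
  refine ⟨ρ, hfl, hirr, fun p hp hpN A hA => ?_⟩
  obtain ⟨hun, hfr⟩ := hmain p hp hpN A hA
  refine ⟨hun, fun σ hσ => ?_⟩
  obtain ⟨ht, hd⟩ := hfr σ hσ
  rw [ht, hd, hα p hp hpN, hee p hp hpN]
  exact ⟨rfl, rfl⟩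

end Fermat.Agent.S48x.Assembly
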