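/-
helper41.  P-S48 (Deligne-Serre), assembly: the two Chebotarev inputs `ChebD2` and `ChebD3` of
`Assembly/Defs.lean`, proved from the Chebotarev density theorem
(`Lib/CFT/ChebDensity/{Density,Bridge}.lean`).
-/
import Mathlib
import Fermat.Agent.S48x.Assembly.Defs
import Fermat.Agent.Lib.CFT.ChebDensity.Bridge

set_option autoImplicit false

namespace Fermat.Agent.S48x.Assembly.ChebInputs

open Fermat.Agent.S48x.Assembly
open Fermat.Agent.Lib.CFT.ChebDensity

/-! ### Fibre counting for a surjective homomorphism of finite groups -/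

section Fibre

variable {G M : Type*} [Group G] [Group M]

/-- A surjective homomorphism `f : G → M` identifies `G` with `M × ker f` (non canonically),
compatibly with the projection to `M`. -/
noncomputable def prodKerEquiv (f : G →* M) (hf : Function.Surjective f) : G ≃ M × f.ker where
  toFun g := (f g, ⟨(Function.surjInv hf (f g))⁻¹ * g, by
    rw [MonoidHom.mem_ker, map_mul, map_inv, Function.surjInv_eq hf, inv_mul_cancel]⟩)
  invFun x := Function.surjInv hf x.1 * x.2
  left_inv g := by simp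
  right_inv x := by
    have h1 : f (Function.surjInv hf x.1 * x.2) = x.1 := by
      rw [map_mul, Function.surjInv_eq hf, (MonoidHom.mem_ker).mp x.2.2, mul_one]
    apply Prod.ext
    · exact h1
    · apply Subtype.ext
      simp only [h1, inv_mul_cancel_left]

theorem prodKerEquiv_fst (f : G →* M) (hf : Function.Surjective f) (g : G) :
    (prodKerEquiv f hf g).1 = f g := rfl

theorem natCard_eq (f : G →* M) (hf : Function.Surjective f) :
    Nat.card G = Nat.card M * Nat.card f.ker := by
  rw [Nat.card_congr (prodKerEquiv f hf), Nat.card_prod]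

theorem natCard_preimage (f : G →* M) (hf : Function.Surjective f) (B : Set M) :
    Nat.card (f ⁻¹' B) = Nat.card B * Nat.card f.ker := by
  have e1 : (f ⁻¹' B) ≃ {x : M × f.ker // x.1 ∈ B} :=
    (prodKerEquiv f hf).subtypeEquiv fun g => Iff.rfl
  have e2 : {x : M × f.ker // x.1 ∈ B} ≃ B × f.ker :=
    { toFun := fun x => (⟨x.1.1, x.2⟩, x.1.2)
      invFun := fun y => ⟨(y.1.1, y.2), y.1.2⟩
      left_inv := fun x => rfl
      right_inv := fun y => rfl }
  rw [Nat.card_congr (e1.trans e2), Nat.card_prod]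

theorem sum_comp_eq [Fintype G] [Fintype M] (f : G →* M) (hf : Function.Surjective f)
    (ψ : M → ℝ) : ∑ g, ψ (f g) = (Nat.card f.ker : ℝ) * ∑ m, ψ m := by
  classical
  have : Fintype f.ker := Fintype.ofFinite _
  rw [Fintype.sum_equiv (prodKerEquiv f hf) (fun g => ψ (f g)) (fun x => ψ x.1) (fun g => rfl),
    Fintype.sum_prod_type, Finset.mul_sum]
  refine Finset.sum_congr rfl fun m _ => ?_
  change ∑ _y : f.ker, ψ m = _
  rw [Finset.sum_const, Finset.card_univ, nsmul_eq_mul, Nat.card_eq_fintype_card]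

end Fibre

/-! ### The finite level of a representation -/

/-- A homomorphism factoring through a finite level descends to the Galois group of a finite
Galois extension `E/ℚ`. -/
theorem exists_level {M : Type} [Group M] (r : GQ →* M) (hr : GaloisFactorsThroughFiniteLevel r) :
    ∃ (E : IntermediateField ℚ Qb) (_ : FiniteDimensional ℚ E) (_ : IsGalois ℚ E)
      (rbar : Gal(E/ℚ) →* M), ∀ φ : GQ, rbar (AlgEquiv.restrictNormalHom E φ) = r φ := by
  obtain ⟨L, hL, hker⟩ := hr
  let E : IntermediateField ℚ Qb := IntermediateField.normalClosure ℚ L Qb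
  have hfd : FiniteDimensional ℚ E := _root_.normalClosure.is_finiteDimensional ℚ L Qb
  have hnormal : Normal ℚ E := _root_.normalClosure.normal ℚ L Qb
  have hgal : IsGalois ℚ E := ⟨⟩
  have hLE : L ≤ E := IntermediateField.le_normalClosure L
  have hsurj : Function.Surjective (AlgEquiv.restrictNormalHom (F := ℚ) (K₁ := Qb) E) :=
    AlgEquiv.restrictNormalHom_surjective Qb
  have hle : (AlgEquiv.restrictNormalHom (F := ℚ) (K₁ := Qb) E).ker ≤ r.ker := by
    intro σ hσ
    rw [MonoidHom.mem_ker] at hσ ⊢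
    apply hker
    intro x hx
    have h1 := AlgEquiv.restrictNormal_commutes σ E ⟨x, hLE hx⟩
    have h2 : σ.restrictNormal E = 1 := hσ
    rw [h2] at h1
    exact h1.symm
  refine ⟨E, hfd, hgal, MonoidHom.liftOfSurjective _ hsurj ⟨r, hle⟩, fun φ => ?_⟩
  exact MonoidHom.liftOfRightInverse_comp_apply _ _ _ ⟨r, hle⟩ φ

/-! ### The two inputs -/

theorem log_inv_sub_one_pos' {s : ℝ} (hs : 1 < s) (hs2 : s < 2) :
    0 < Real.log (1 / (s - 1)) := by
  apply Real.log_pos
  rw [lt_div_iff₀ (by linarith)]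
  linarith

theorem log_inv_sub_one_nonneg {s : ℝ} (hs : 1 < s) (hs2 : s ≤ 2) :
    0 ≤ Real.log (1 / (s - 1)) := by
  apply Real.log_nonneg
  rw [le_div_iff₀ (by linarith)]
  linarith

/-- **Chebotarev, density form (D2).** -/
theorem chebD2 : ChebD2 := by
  intro M _ _ r hsurj hfin B _hB X c hX S hFrob
  obtain ⟨E, hfd, hgal, rbar, hrbar⟩ := exists_level r hfin
  have hrbar_surj : Function.Surjective rbar := by
    intro m
    obtain ⟨φ, rfl⟩ := hsurj m
    exact ⟨_, hrbar φ⟩
  obtain ⟨C', hX'⟩ := hX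
  have hmain := Bridge.card_le_of_sum_le E (rbar ⁻¹' B) X S c C' hX'
    (fun p hp hpS A hA φ hφ hmem => hFrob p hp hpS A hA φ hφ (by
      have : rbar (AlgEquiv.restrictNormalHom E φ) ∈ B := hmem
      rwa [hrbar] at this))
  rw [natCard_preimage rbar hrbar_surj B, natCard_eq rbar hrbar_surj] at hmain
  have hkpos : (0 : ℝ) < (Nat.card rbar.ker : ℝ) := by exact_mod_cast Nat.card_pos
  push_cast at hmain
  have h4 : (Nat.card B : ℝ) * (Nat.card rbar.ker : ℝ) ≤
      c * (Nat.card M : ℝ) * (Nat.card rbar.ker : ℝ) := by linarith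
  exact le_of_mul_le_mul_right h4 hkpos

/-- **Chebotarev, density form (D3).** -/
theorem chebD3 : ChebD3 := by
  intro M _ _ r hsurj hfin ψ hψ _hclass w S hw ε hε
  obtain ⟨E, hfd, hgal, rbar, hrbar⟩ := exists_level r hfin
  have hrbar_surj : Function.Surjective rbar := by
    intro m
    obtain ⟨φ, rfl⟩ := hsurj m
    exact ⟨_, hrbar φ⟩
  have : Fintype Gal(E/ℚ) := Fintype.ofFinite _
  have : Fintype M := Fintype.ofFinite M
  obtain ⟨s₀, hs₀, h⟩ := Bridge.exists_finset_sum_ge_of_lt E (fun σ => ψ (rbar σ))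
    (fun σ => hψ _) w S (fun p hp hpS A hA φ hφ => by rw [hw p hp hpS A hA φ hφ, hrbar]) hε
  refine ⟨s₀, hs₀, fun s hs hs' => ?_⟩
  obtain ⟨P, hP, hsum⟩ := h s hs hs'
  refine ⟨P, hP, ?_⟩
  have hkpos : (0 : ℝ) < (Nat.card rbar.ker : ℝ) := by exact_mod_cast Nat.card_pos
  have hmean : (∑ σ, ψ (rbar σ)) / (Nat.card Gal(E/ℚ) : ℝ) = (∑ᶠ g, ψ g) / (Nat.card M : ℝ) := by
    rw [finsum_eq_sum_of_fintype, sum_comp_eq rbar hrbar_surj ψ, natCard_eq rbar hrbar_surj]
    push_cast
    rw [mul_comm (Nat.card M : ℝ), mul_div_mul_left _ _ hkpos.ne']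
  rwa [hmean] at hsum

end Fermat.Agent.S48x.Assembly.ChebInputs
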