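/-
helper18.  P-S48 (Deligne-Serre): the frozen statement S48 from the single remaining input, the
export of the `Γ₁`-gateway (`DS2.G1Statement`, the pinned target of `G1/Final.g1_main`).
Everything else is discharged: DS0 (helper16, helper39 and the GS1 team), DS1 (helper42,
helper56), E-WP (helper42, helper40, helper30), DS2-top (helper52, helper35, helper78), DS3
(helper68), Chebotarev density (helper41), Lift (helper19, helper23, helper15) and the assembly.
-/
import Mathlib
import Fermat.Agent.S48x.Assembly.Main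
import Fermat.Agent.S48x.DS2.Closed

set_option autoImplicit false

open CongruenceSubgroup
open scoped MatrixGroups

namespace Fermat.Agent.S48x.Assembly

/-- **Deligne-Serre (the frozen statement S48)** from the `Γ₁`-gateway export. -/
theorem s48_of_G1 (hG1 : DS2.G1Statement)
    (N : ℕ) [NeZero N] (ε : DirichletCharacter ℂ N) (f : CuspForm (Gamma1 N) 1)
    (hf₁ : ModularFormClass.qCoeff f 1 = 1)
    (hT : ∀ p : ℕ, p.Prime → ¬ p ∣ N → ∀ n : ℕ,
        ModularFormClass.qCoeff f (p * n) +
            ε (p : ZMod N) * (if p ∣ n then ModularFormClass.qCoeff f (n / p) else 0) =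
          ModularFormClass.qCoeff f p * ModularFormClass.qCoeff f n) :
    ∃ ρ : GQ →* GL (Fin 2) ℂ, GaloisFactorsThroughFiniteLevel ρ ∧
      (Deformation.matrixRepresentation ρ).IsIrreducible ∧
      ∀ p : ℕ, p.Prime → ¬ p ∣ N →
        ∀ A : ValuationSubring (AlgebraicClosure ℚ), A.LiesOverPrime p →
          (∀ σ ∈ A.inertiaSubgroupIn ℚ, ρ σ = 1) ∧
          ∀ σ : GQ, A.IsFrobeniusAt σ p →
            ((ρ σ : GL (Fin 2) ℂ) : Matrix (Fin 2) (Fin 2) ℂ).trace = ModularFormClass.qCoeff f p ∧
            ((ρ σ : GL (Fin 2) ℂ) : Matrix (Fin 2) (Fin 2) ℂ).det = ε (p : ZMod N) :=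
  s48_of_inputs ε (fun p => ModularFormClass.qCoeff f p) (DS0.integral ε f hf₁ hT)
    (DS0.numberField_rankin ε f hf₁ hT) (DS2.residualRepsExist_of_G1 hG1 ε f hf₁ hT)

end Fermat.Agent.S48x.Assembly
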