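import Mathlib
import Fermat.Prelude.Def_FLTPrelim_Ramification
import Fermat.Agent.Lib.FrobeniusExistsAt

/-!
# P-S48 (Deligne–Serre), STEP 3 "pinning" lemmas (helper19)

A nonzero algebraic integer lies in the maximal ideal of a valuation subring over `l` for only
finitely many primes `l`.
-/

set_option autoImplicit false

universe u

namespace Fermat.Agent.S48x.Assembly

open Fermat.Agent.Lib Polynomial

variable {L : Type u} [Field L] [CharZero L]

/-- If a nonzero algebraic integer `x` is a non-unit of a valuation subring over `l`, then `l`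
divides the constant coefficient of the minimal polynomial of `x` over `ℤ`. -/
theorem dvd_coeff_zero_minpoly_of_mem_nonunits {x : L} (hx : IsIntegral ℤ x)
    (A : ValuationSubring L) {l : ℕ} (hl : l.Prime) (hA : A.LiesOverPrime l)
    (hxA : x ∈ A.nonunits) : (l : ℤ) ∣ (minpoly ℤ x).coeff 0 := by
  set p := minpoly ℤ x with hp
  -- `a₀ = - x * q(x)`
  have hdecomp : p = divX p * X + C (p.coeff 0) := (divX_mul_X_add p).symm
  have haev : aeval x p = 0 := minpoly.aeval ℤ x
  have h1 : aeval x (divX p) * x + ((p.coeff 0 : ℤ) : L) = 0 := by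
    rw [hdecomp] at haev
    simpa using haev
  have hq : IsIntegral ℤ (aeval x (divX p)) := by
    have h1 : aeval x (divX p) ∈ Algebra.adjoin ℤ {x} := aeval_mem_adjoin_singleton ℤ x
    have h2 : Algebra.adjoin ℤ {x} ≤ integralClosure ℤ L :=
      Algebra.adjoin_le (Set.singleton_subset_iff.mpr hx)
    exact h2 h1
  have hqA : aeval x (divX p) ∈ A := mem_valuationSubring_of_isIntegral A hq
  have ha0 : ((p.coeff 0 : ℤ) : L) ∈ A.nonunits := by
    have : ((p.coeff 0 : ℤ) : L) = -(x * aeval x (divX p)) := by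
      rw [mul_comm]
      exact eq_neg_of_add_eq_zero_right h1
    rw [this]
    have hmul : x * aeval x (divX p) ∈ A.nonunits := mul_mem_nonunits_of_mem A hxA hqA
    rw [ValuationSubring.mem_nonunits_iff] at hmul ⊢
    rwa [Valuation.map_neg]
  -- coprimality argument
  by_contra hnd
  have hcop : IsCoprime (p.coeff 0) (l : ℤ) := by
    rw [isCoprime_comm]
    exact (Nat.prime_iff_prime_int.mp hl).coprime_iff_not_dvd.mpr hnd
  obtain ⟨u, v, huv⟩ := hcop
  have hlA : ((l : ℤ) : L) ∈ A.nonunits := by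
    have : ((l : ℤ) : L) = ((l : ℕ) : L) := by push_cast; rfl
    rw [this]
    exact hA
  have h1mem : (1 : L) ∈ A.nonunits := by
    have hcast : (1 : L) = (u : L) * ((p.coeff 0 : ℤ) : L) + (v : L) * ((l : ℤ) : L) := by
      have := congrArg (fun z : ℤ => (z : L)) huv
      simp only [Int.cast_add, Int.cast_mul, Int.cast_one] at this
      exact this.symm
    rw [hcast]
    have hu : (u : L) ∈ A := mem_valuationSubring_of_isIntegral A isIntegral_algebraMap
    have hv : (v : L) ∈ A := mem_valuationSubring_of_isIntegral A isIntegral_algebraMap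
    exact A.nonunits.add_mem (by rw [mul_comm]; exact mul_mem_nonunits_of_mem A ha0 hu)
      (by rw [mul_comm]; exact mul_mem_nonunits_of_mem A hlA hv)
  rw [ValuationSubring.mem_nonunits_iff, map_one] at h1mem
  exact lt_irrefl _ h1mem

/-- **Pinning lemma.** A nonzero algebraic integer is a non-unit at only finitely many primes. -/
theorem finite_setOf_prime_mem_nonunits {x : L} (hx : IsIntegral ℤ x) (hx0 : x ≠ 0) :
    {l : ℕ | l.Prime ∧ ∃ A : ValuationSubring L, A.LiesOverPrime l ∧ x ∈ A.nonunits}.Finite := by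
  have ha0 : (minpoly ℤ x).coeff 0 ≠ 0 := by
    intro h0
    have hQ : IsIntegral ℚ x := hx.tower_top
    have h1 : minpoly ℚ x = (minpoly ℤ x).map (algebraMap ℤ ℚ) :=
      minpoly.isIntegrallyClosed_eq_field_fractions' ℚ hx
    have h2 : (minpoly ℚ x).coeff 0 = 0 := by
      rw [h1, coeff_map, h0, map_zero]
    exact minpoly.coeff_zero_ne_zero hQ hx0 h2
  refine ((Nat.divisors ((minpoly ℤ x).coeff 0).natAbs).finite_toSet).subset ?_
  rintro l ⟨hl, A, hA, hxA⟩
  have hdvd := dvd_coeff_zero_minpoly_of_mem_nonunits hx A hl hA hxA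
  simp only [Finset.mem_coe, Nat.mem_divisors]
  refine ⟨?_, fun h => ha0 (Int.natAbs_eq_zero.mp h)⟩
  exact Int.natCast_dvd.mp hdvd

/-- Distinct elements of a finite set of algebraic integers stay distinct modulo every valuation
subring over `l`, for all but finitely many primes `l`. -/
theorem finite_setOf_prime_exists_congr {Y : Set L} (hY : Y.Finite)
    (hYint : ∀ y ∈ Y, IsIntegral ℤ y) :
    {l : ℕ | l.Prime ∧ ∃ A : ValuationSubring L, A.LiesOverPrime l ∧
      ∃ y ∈ Y, ∃ y' ∈ Y, y ≠ y' ∧ y - y' ∈ A.nonunits}.Finite := by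
  have hfin : (⋃ z ∈ {z : L × L | z.1 ∈ Y ∧ z.2 ∈ Y ∧ z.1 ≠ z.2},
      {l : ℕ | l.Prime ∧ ∃ A : ValuationSubring L, A.LiesOverPrime l ∧
        z.1 - z.2 ∈ A.nonunits}).Finite := by
    refine Set.Finite.biUnion ((hY.prod hY).subset fun z hz => ⟨hz.1, hz.2.1⟩) ?_
    rintro ⟨y, y'⟩ ⟨hy, hy', hne⟩
    exact finite_setOf_prime_mem_nonunits ((hYint y hy).sub (hYint y' hy')) (sub_ne_zero.mpr hne)
  refine hfin.subset ?_
  rintro l ⟨hl, A, hA, y, hy, y', hy', hne, hmem⟩
  simp only [Set.mem_iUnion, Set.mem_setOf_eq]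
  exact ⟨(y, y'), ⟨hy, hy', hne⟩, hl, A, hA, hmem⟩

/-- If an algebraic integer `x` is congruent to an element of a finite set `Y` of algebraic
integers modulo valuation subrings over infinitely many primes, then `x ∈ Y`. -/
theorem mem_of_infinite_setOf_prime_congr {Y : Set L} (hY : Y.Finite)
    (hYint : ∀ y ∈ Y, IsIntegral ℤ y) {x : L} (hx : IsIntegral ℤ x)
    (h : {l : ℕ | l.Prime ∧ ∃ A : ValuationSubring L, A.LiesOverPrime l ∧
      ∃ y ∈ Y, x - y ∈ A.nonunits}.Infinite) : x ∈ Y := by
  by_contra hxY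
  refine h ?_
  have hfin : (⋃ y ∈ Y, {l : ℕ | l.Prime ∧ ∃ A : ValuationSubring L, A.LiesOverPrime l ∧
      x - y ∈ A.nonunits}).Finite := by
    refine Set.Finite.biUnion hY ?_
    intro y hy
    refine finite_setOf_prime_mem_nonunits (hx.sub (hYint y hy)) (sub_ne_zero.mpr ?_)
    rintro rfl
    exact hxY hy
  refine hfin.subset ?_
  rintro l ⟨hl, A, hA, y, hy, hmem⟩
  simp only [Set.mem_iUnion, Set.mem_setOf_eq]
  exact ⟨y, hy, hl, A, hA, hmem⟩

end Fermat.Agent.S48x.Assembly
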