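import Mathlib
import Fermat.Agent.Lib.FrobeniusValuation
import Fermat.Agent.S48x.Assembly.Defs

/-!
# P-S48 (Deligne–Serre), GlueC (i): the residue map of a place of `ℚ̄` on `ℤ̄ ⊆ ℂ` (helper19)

Given an embedding `ι : ℚ̄ → ℂ` and a valuation subring `A` of `ℚ̄` over `ℓ`, the algebraic integers
of `ℂ` are the `ι`-images of the algebraic integers of `ℚ̄`, which lie in `A`; composing with the
residue map of `A` gives `φ : integralClosure ℤ ℂ →+* k`, `k` the residue field of `A` (of
characteristic `ℓ`), with `φ z = 0 ↔ z' ∈ A.nonunits` whenever `ι z' = z`.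
-/

set_option autoImplicit false

namespace Fermat.Agent.S48x.Assembly

open Fermat.Agent.Lib

/-- The range of an embedding `ℚ̄ → ℂ` contains all algebraic numbers. -/
theorem mem_range_of_isAlgebraic (ι : Qb →+* ℂ) {y : ℂ} (hy : IsAlgebraic ℚ y) : y ∈ ι.range := by
  set f := minpoly ℚ y with hf
  have hf0 : f.map (algebraMap ℚ Qb) ≠ 0 :=
    (Polynomial.map_ne_zero_iff (algebraMap ℚ Qb).injective).2 (minpoly.ne_zero hy.isIntegral)
  have hmap : (f.map (algebraMap ℚ Qb)).map ι = f.map (algebraMap ℚ ℂ) := by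
    rw [Polynomial.map_map]
    congr 1
    exact Subsingleton.elim _ _
  have hroot : ((f.map (algebraMap ℚ Qb)).map ι).IsRoot y := by
    rw [hmap, Polynomial.IsRoot.def, Polynomial.eval_map_algebraMap]
    exact minpoly.aeval ℚ y
  obtain ⟨β, hβ⟩ := (IsAlgClosed.splits (f.map (algebraMap ℚ Qb))).mem_range_of_isRoot hf0 hroot
  exact ⟨β, hβ⟩

/-- An element of `ℚ̄` whose image under an embedding into `ℂ` is an algebraic integer is an
algebraic integer. -/
theorem isIntegral_of_isIntegral_map (ι : Qb →+* ℂ) {x : Qb} (h : IsIntegral ℤ (ι x)) :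
    IsIntegral ℤ x :=
  (isIntegral_algHom_iff (ι.toIntAlgHom) ι.injective).mp h

/-- **GlueC (i).** The residue map of the place `A` of `ℚ̄` over `ℓ`, transported to the algebraic
integers of `ℂ` along the embedding `ι`. -/
theorem exists_residueMap (ι : Qb →+* ℂ) (A : ValuationSubring Qb) {ℓ : ℕ} (hℓ : ℓ.Prime)
    (hA : A.LiesOverPrime ℓ) :
    ∃ (k : Type) (_ : Field k) (_ : CharP k ℓ) (φ : integralClosure ℤ ℂ →+* k),
      (∀ (z : integralClosure ℤ ℂ) (z' : Qb), ι z' = (z : ℂ) → (φ z = 0 ↔ z' ∈ A.nonunits)) ∧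
      ∀ (z : integralClosure ℤ ℂ) (z' : Qb) (n : ℤ), ι z' = (z : ℂ) →
        (φ z = (n : k) ↔ z' - (n : Qb) ∈ A.nonunits) := by
  classical
  have hinj : Function.Injective ι := ι.injective
  -- every algebraic integer of `ℂ` has a preimage in `A`
  have hpre : ∀ z : integralClosure ℤ ℂ, ∃ z' : A, ι (z' : Qb) = (z : ℂ) := by
    intro z
    have hzint : IsIntegral ℤ (z : ℂ) := z.2
    have hzalg : IsAlgebraic ℚ (z : ℂ) := (hzint.tower_top (A := ℚ)).isAlgebraic
    obtain ⟨z', hz'⟩ := mem_range_of_isAlgebraic ι hzalg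
    have hz'int : IsIntegral ℤ z' := isIntegral_of_isIntegral_map ι (by rw [hz']; exact hzint)
    exact ⟨⟨z', mem_valuationSubring_of_isIntegral A hz'int⟩, hz'⟩
  choose pre hpre using hpre
  have hpre_eq : ∀ (z : integralClosure ℤ ℂ) (z' : Qb), ι z' = (z : ℂ) → ((pre z : A) : Qb) = z' :=
    fun z z' h => hinj (by rw [hpre, h])
  let preHom : integralClosure ℤ ℂ →+* A :=
    { toFun := pre
      map_one' := Subtype.ext (hpre_eq 1 1 (by simp))
      map_mul' := fun z w => Subtype.ext (hpre_eq (z * w) _ (by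
        show ι ((pre z : Qb) * (pre w : Qb)) = (z : ℂ) * (w : ℂ)
        rw [map_mul, hpre, hpre]))
      map_zero' := Subtype.ext (hpre_eq 0 0 (by simp))
      map_add' := fun z w => Subtype.ext (hpre_eq (z + w) _ (by
        show ι ((pre z : Qb) + (pre w : Qb)) = (z : ℂ) + (w : ℂ)
        rw [map_add, hpre, hpre])) }
  let φ : integralClosure ℤ ℂ →+* IsLocalRing.ResidueField A :=
    (IsLocalRing.residue A).comp preHom
  have hφ0 : ∀ (z : integralClosure ℤ ℂ) (z' : Qb), ι z' = (z : ℂ) →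
      (φ z = 0 ↔ z' ∈ A.nonunits) := by
    intro z z' h
    show IsLocalRing.residue A (pre z) = 0 ↔ _
    rw [IsLocalRing.residue_eq_zero_iff, ← ValuationSubring.coe_mem_nonunits_iff, hpre_eq z z' h]
  have hchar : CharP (IsLocalRing.ResidueField A) ℓ := by
    rw [CharP.charP_iff_prime_eq_zero hℓ]
    have h1 : ((ℓ : ℕ) : IsLocalRing.ResidueField A) = IsLocalRing.residue A ((ℓ : ℕ) : A) := by
      rw [map_natCast]
    rw [h1, IsLocalRing.residue_eq_zero_iff, ← ValuationSubring.coe_mem_nonunits_iff]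
    exact hA
  refine ⟨IsLocalRing.ResidueField A, inferInstance, hchar, φ, hφ0, fun z z' n h => ?_⟩
  have h2 : ι (z' - (n : Qb)) = ((z - (n : integralClosure ℤ ℂ) : integralClosure ℤ ℂ) : ℂ) := by
    rw [map_sub, map_intCast, h]
    simp
  rw [← hφ0 _ _ h2, map_sub, map_intCast, sub_eq_zero]

end Fermat.Agent.S48x.Assembly
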