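/-
P-S48 (Deligne–Serre), assembly, STEP 4 (helper78): the two primes trick.

Two exact characteristic zero representations `R₁`, `R₂` attached to the same eigen-data `D` of
level `N`, with auxiliary primes `ℓ₁ ≠ ℓ₂`, have the same traces and determinants everywhere
(Chebotarev: every element is a Frobenius element at a prime outside `N ℓ₁ ℓ₂` modulo the two
finite levels).  Consequently `R₁` is unramified at `ℓ₁` as well (on the inertia at `ℓ₁` the
representation `R₂` is trivial, so `R₁` has trace `2`, determinant `1` and finite order there), and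
the Frobenius elements at `ℓ₁` have the expected trace and determinant: `R₁` is unramified with the
exact Frobenius data at every prime `p ∤ N`.

* `trace_det_eq_of_exactRep` : `R₁.ρ σ` and `R₂.ρ σ` have the same trace and determinant;
* `exactRep_unram_frob` : the statement above.
-/
import Mathlib
import Fermat.Agent.S48x.Assembly.Pin
import Fermat.Agent.S48x.Extract.Galois

set_option autoImplicit false

namespace Fermat.Agent.S48x.Assembly

/-- Two exact representations attached to the same eigen-data have the same traces and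
determinants (no hypothesis on the auxiliary primes). -/
theorem trace_det_eq_of_exactRep {N : ℕ} (hN : N ≠ 0) (D : EigenData N) {m ℓ₁ ℓ₂ : ℕ}
    (h₁ : ℓ₁.Prime) (h₂ : ℓ₂.Prime) (R₁ : ExactRep D ℓ₁ m) (R₂ : ExactRep D ℓ₂ m) (σ : GQ) :
    ((R₁.ρ σ : GL (Fin 2) Qb) : Matrix (Fin 2) (Fin 2) Qb).trace =
        ((R₂.ρ σ : GL (Fin 2) Qb) : Matrix (Fin 2) (Fin 2) Qb).trace ∧
      ((R₁.ρ σ : GL (Fin 2) Qb) : Matrix (Fin 2) (Fin 2) Qb).det =
        ((R₂.ρ σ : GL (Fin 2) Qb) : Matrix (Fin 2) (Fin 2) Qb).det := by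
  obtain ⟨q, hq, hqS, A, hA, φ, hφ, e₁, e₂⟩ :=
    Fermat.Agent.S48x.Extract.exists_frobenius_eq₂ R₁.ρ R₁.finite_level R₂.ρ R₂.finite_level σ
      (N * ℓ₁ * ℓ₂).primeFactors
  have hne : N * ℓ₁ * ℓ₂ ≠ 0 := mul_ne_zero (mul_ne_zero hN h₁.ne_zero) h₂.ne_zero
  have hq' : ¬ q ∣ N * ℓ₁ * ℓ₂ := fun hd => hqS (Nat.mem_primeFactors.mpr ⟨hq, hd, hne⟩)
  have hq₁ : ¬ q ∣ N * ℓ₁ := fun hd => hq' (Dvd.dvd.mul_right hd ℓ₂)
  have hq₂ : ¬ q ∣ N * ℓ₂ := fun hd => hq' (by
    have : N * ℓ₁ * ℓ₂ = N * ℓ₂ * ℓ₁ := by ring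
    rw [this]
    exact Dvd.dvd.mul_right hd ℓ₁)
  have f₁ := R₁.frob q hq hq₁ A hA φ hφ
  have f₂ := R₂.frob q hq hq₂ A hA φ hφ
  rw [← e₁, ← e₂]
  exact ⟨f₁.1.trans f₂.1.symm, f₁.2.trans f₂.2.symm⟩

/-- **The two primes trick**: an exact representation with auxiliary prime `ℓ₁` is unramified with
the exact Frobenius data at every prime `p ∤ N`, as soon as there is an exact representation with
another auxiliary prime `ℓ₂ ≠ ℓ₁`. -/
theorem exactRep_unram_frob {N : ℕ} (hN : N ≠ 0) (D : EigenData N) {m ℓ₁ ℓ₂ : ℕ} (hm : 0 < m)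
    (h₁ : ℓ₁.Prime) (h₂ : ℓ₂.Prime) (hne : ℓ₁ ≠ ℓ₂) (R₁ : ExactRep D ℓ₁ m)
    (R₂ : ExactRep D ℓ₂ m) :
    ∀ p : ℕ, p.Prime → ¬ p ∣ N → ∀ A : ValuationSubring Qb, A.LiesOverPrime p →
      (∀ σ ∈ A.inertiaSubgroupIn ℚ, R₁.ρ σ = 1) ∧
      ∀ σ : GQ, A.IsFrobeniusAt σ p →
        ((R₁.ρ σ : GL (Fin 2) Qb) : Matrix (Fin 2) (Fin 2) Qb).trace = D.α p ∧
        ((R₁.ρ σ : GL (Fin 2) Qb) : Matrix (Fin 2) (Fin 2) Qb).det = D.ee p := by
  intro p hp hpN A hA
  by_cases hpl : p = ℓ₁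
  · -- the auxiliary prime itself: use the second representation
    have hp₂ : ¬ p ∣ N * ℓ₂ := by
      intro hd
      rcases (Nat.Prime.dvd_mul hp).mp hd with h | h
      · exact hpN h
      · exact hne (hpl.symm.trans ((Nat.prime_dvd_prime_iff_eq hp h₂).mp h))
    refine ⟨fun σ hσ => ?_, fun σ hσ => ?_⟩
    · have e := trace_det_eq_of_exactRep hN D h₁ h₂ R₁ R₂ σ
      have h1 : R₂.ρ σ = 1 := R₂.unram p hp hp₂ A hA σ hσ
      rw [h1] at e
      have ht : ((R₁.ρ σ : GL (Fin 2) Qb) : Matrix (Fin 2) (Fin 2) Qb).trace = 2 := by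
        rw [e.1]
        simp
      have hd : ((R₁.ρ σ : GL (Fin 2) Qb) : Matrix (Fin 2) (Fin 2) Qb).det = 1 := by
        rw [e.2]
        simp
      have hpow : ((R₁.ρ σ : GL (Fin 2) Qb) : Matrix (Fin 2) (Fin 2) Qb) ^ m = 1 := by
        have := congrArg (fun g : GL (Fin 2) Qb => (g : Matrix (Fin 2) (Fin 2) Qb))
          (R₁.pow_eq_one σ)
        simpa using this
      exact Units.ext (eq_one_of_pow_eq_one_of_trace hm hpow ht hd)
    · have e := trace_det_eq_of_exactRep hN D h₁ h₂ R₁ R₂ σ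
      have f := R₂.frob p hp hp₂ A hA σ hσ
      exact ⟨e.1.trans f.1, e.2.trans f.2⟩
  · have hp₁ : ¬ p ∣ N * ℓ₁ := by
      intro hd
      rcases (Nat.Prime.dvd_mul hp).mp hd with h | h
      · exact hpN h
      · exact hpl ((Nat.prime_dvd_prime_iff_eq hp h₁).mp h)
    exact ⟨R₁.unram p hp hp₁ A hA, R₁.frob p hp hp₁ A hA⟩

end Fermat.Agent.S48x.Assembly
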